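/-
Project ONE MACHINE, block [F], [RO] layer (helper27; prefix `twfo_`).

A complete discrete valuation ring `O` of mixed characteristic `(0, p)` with FINITE residue field is
a finite free `ℤ_p`-module (for any `ℤ_p`-algebra structure on it).  Mathlib only.

* `twfo_span_p_eq_pow`   : `(p) = 𝔪 ^ e`;
* `twfo_finite_quot_p`   : `O / p O` is finite;
* `twfo_padic_limit`     : limits of `p`-adically Cauchy sequences in `ℤ_p` (divisibility form);
* `twfo_finite_padic`    : `Module.Finite ℤ_[p] O`   (digit expansion + Hausdorff);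
* `twfo_free_padic`      : `Module.Free ℤ_[p] O`.
-/
import Mathlib

set_option autoImplicit false
set_option linter.unusedSectionVars false
set_option linter.style.haveILetI false

namespace Fermat.Agent.TW

open IsLocalRing

section Limit

variable (p : ℕ) [Fact p.Prime]

/-- limits of `p`-adically Cauchy sequences in `ℤ_p`, in divisibility form. -/
theorem twfo_padic_limit (f : ℕ → ℤ_[p]) (hf : ∀ n, (p : ℤ_[p]) ^ n ∣ f (n + 1) - f n) :
    ∃ L : ℤ_[p], ∀ n, (p : ℤ_[p]) ^ n ∣ L - f n := by
  have hmono : ∀ m n, m ≤ n → (p : ℤ_[p]) ^ m ∣ f n - f m := by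
    intro m n hmn
    induction n, hmn using Nat.le_induction with
    | base => simp
    | succ n hmn ih =>
      have h1 : f (n + 1) - f m = (f (n + 1) - f n) + (f n - f m) := by ring
      rw [h1]
      exact dvd_add ((pow_dvd_pow _ hmn).trans (hf n)) ih
  have hmem : ∀ (m : ℕ) (x : ℤ_[p]),
      x ∈ (maximalIdeal ℤ_[p] ^ m • ⊤ : Submodule ℤ_[p] ℤ_[p]) ↔ (p : ℤ_[p]) ^ m ∣ x := by
    intro m x
    rw [smul_eq_mul, Ideal.mul_top, PadicInt.maximalIdeal_eq_span_p, Ideal.span_singleton_pow,
      Ideal.mem_span_singleton]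
  have hprec : IsPrecomplete (maximalIdeal ℤ_[p]) ℤ_[p] := inferInstance
  obtain ⟨L, hL⟩ := hprec.prec (f := f) (by
    intro m n hmn
    rw [SModEq.sub_mem, hmem]
    have := hmono m n hmn
    rw [← neg_sub]
    exact (dvd_neg).2 this)
  refine ⟨L, fun n => ?_⟩
  have := hL n
  rw [SModEq.sub_mem, hmem] at this
  rw [← neg_sub]
  exact (dvd_neg).2 this

end Limit

section PadicFinite

variable (p : ℕ) [Fact p.Prime] (O : Type*) [CommRing O] [IsDomain O]
  [IsDiscreteValuationRing O]

/-- `(p) = 𝔪 ^ e` -/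
theorem twfo_span_p_eq_pow (hp0 : (p : O) ≠ 0) :
    ∃ e : ℕ, Ideal.span {(p : O)} = maximalIdeal O ^ e := by
  obtain ⟨ϖ, hϖ⟩ := IsDiscreteValuationRing.exists_irreducible O
  have hne : Ideal.span {(p : O)} ≠ ⊥ := by
    rw [Ne, Ideal.span_singleton_eq_bot]
    exact hp0
  obtain ⟨e, he⟩ := IsDiscreteValuationRing.ideal_eq_span_pow_irreducible hne hϖ
  refine ⟨e, ?_⟩
  rw [he, (IsDiscreteValuationRing.irreducible_iff_uniformizer _).1 hϖ, Ideal.span_singleton_pow]

/-- `O / p O` is finite. -/
theorem twfo_finite_quot_p [Finite (ResidueField O)] (hp0 : (p : O) ≠ 0) :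
    Finite (O ⧸ Ideal.span {(p : O)}) := by
  obtain ⟨e, he⟩ := twfo_span_p_eq_pow p O hp0
  rw [he]
  haveI : Finite (O ⧸ maximalIdeal O) := inferInstanceAs (Finite (ResidueField O))
  exact Ideal.finite_quotient_pow (IsNoetherian.noetherian _) e

variable [IsAdicComplete (maximalIdeal O) O] [Finite (ResidueField O)] [Algebra ℤ_[p] O]

/-- **A complete DVR of mixed characteristic with finite residue field is finite over `ℤ_p`.** -/
theorem twfo_finite_padic (hp : (p : O) ∈ maximalIdeal O) (hp0 : (p : O) ≠ 0) :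
    Module.Finite ℤ_[p] O := by
  classical
  set I : Ideal O := Ideal.span {(p : O)} with hI
  haveI : Finite (O ⧸ I) := twfo_finite_quot_p p O hp0
  haveI : Fintype (O ⧸ I) := Fintype.ofFinite _
  -- a section of the quotient map
  let s : O ⧸ I → O := fun c => Quotient.out c
  have hs : ∀ c, Ideal.Quotient.mk I (s c) = c := fun c => Quotient.out_eq c
  -- the next remainder
  have hnext : ∀ r : O, ∃ y : O, r = s (Ideal.Quotient.mk I r) + (p : O) * y := by
    intro r
    have h0 : r - s (Ideal.Quotient.mk I r) ∈ I := by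
      rw [← Ideal.Quotient.eq, hs]
    obtain ⟨y, hy⟩ := Ideal.mem_span_singleton'.1 h0
    exact ⟨y, by rw [mul_comm, hy]; ring⟩
  choose next hnext' using hnext
  refine ⟨⟨Finset.univ.image s, ?_⟩⟩
  rw [eq_top_iff]
  intro x _
  -- the remainders and the digit expansion
  let rem : ℕ → O := fun k => next^[k] x
  have hrem_succ : ∀ k, rem (k + 1) = next (rem k) := fun k =>
    Function.iterate_succ_apply' next k x
  have hexp : ∀ n : ℕ, x = (∑ k ∈ Finset.range n, (p : O) ^ k * s (Ideal.Quotient.mk I (rem k)))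
      + (p : O) ^ n * rem n := by
    intro n
    induction n with
    | zero => simp [rem]
    | succ n ih =>
      rw [Finset.sum_range_succ, hrem_succ, pow_succ]
      have h1 := hnext' (rem n)
      calc x = (∑ k ∈ Finset.range n, (p : O) ^ k * s (Ideal.Quotient.mk I (rem k)))
            + (p : O) ^ n * rem n := ih
        _ = (∑ k ∈ Finset.range n, (p : O) ^ k * s (Ideal.Quotient.mk I (rem k)))
            + (p : O) ^ n * (s (Ideal.Quotient.mk I (rem n)) + (p : O) * next (rem n)) := by
              rw [← h1]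
        _ = _ := by ring
  -- the coefficients
  let a : ℕ → (O ⧸ I) → ℤ_[p] := fun n c =>
    ∑ k ∈ Finset.range n, if Ideal.Quotient.mk I (rem k) = c then (p : ℤ_[p]) ^ k else 0
  have ha : ∀ c n, (p : ℤ_[p]) ^ n ∣ a (n + 1) c - a n c := by
    intro c n
    simp only [a, Finset.sum_range_succ, add_sub_cancel_left]
    split_ifs
    · exact dvd_rfl
    · exact dvd_zero _
  choose L hL using fun c => twfo_padic_limit p (fun n => a n c) (ha c)
  -- the partial sums, regrouped
  have hsum : ∀ n : ℕ, (∑ k ∈ Finset.range n, (p : O) ^ k * s (Ideal.Quotient.mk I (rem k)))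
      = ∑ c : O ⧸ I, a n c • s c := by
    intro n
    simp only [a, Finset.sum_smul]
    rw [Finset.sum_comm]
    refine Finset.sum_congr rfl fun k _ => ?_
    rw [Finset.sum_eq_single (Ideal.Quotient.mk I (rem k))]
    · rw [if_pos rfl, Algebra.smul_def, map_pow, map_natCast]
    · intro c _ hc
      rw [if_neg (Ne.symm hc), zero_smul]
    · intro h
      exact absurd (Finset.mem_univ _) h
  have hx : x = ∑ c : O ⧸ I, L c • s c := by
    have hH : IsHausdorff (maximalIdeal O) O := inferInstance
    rw [← sub_eq_zero]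
    apply hH.haus
    intro n
    rw [SModEq.sub_mem, sub_zero, smul_eq_mul, Ideal.mul_top]
    have hpn : (p : O) ^ n ∈ maximalIdeal O ^ n := Ideal.pow_mem_pow hp n
    have h1 : x - ∑ c : O ⧸ I, L c • s c
        = (p : O) ^ n * rem n - ∑ c : O ⧸ I, (L c - a n c) • s c := by
      conv_lhs => rw [hexp n, hsum n]
      simp only [sub_smul, Finset.sum_sub_distrib]
      ring
    rw [h1]
    refine Ideal.sub_mem _ (Ideal.mul_mem_right _ _ hpn) (Ideal.sum_mem _ fun c _ => ?_)
    obtain ⟨t, ht⟩ := hL c n
    rw [ht, Algebra.smul_def, map_mul, map_pow, map_natCast, mul_assoc]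
    exact Ideal.mul_mem_right _ _ hpn
  rw [hx]
  refine Submodule.sum_mem _ fun c _ => Submodule.smul_mem _ _ (Submodule.subset_span ?_)
  simp

/-- **A complete DVR of mixed characteristic with finite residue field is free over `ℤ_p`.** -/
theorem twfo_free_padic [CharZero O] (hp : (p : O) ∈ maximalIdeal O) :
    Module.Free ℤ_[p] O := by
  have hp0 : (p : O) ≠ 0 := by
    exact_mod_cast (Fact.out : p.Prime).ne_zero
  haveI : Module.Finite ℤ_[p] O := twfo_finite_padic p O hp hp0
  haveI : Module.IsTorsionFree ℤ_[p] O := by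
    have hinj : Function.Injective (algebraMap ℤ_[p] O) := by
      rw [injective_iff_map_eq_zero]
      intro a ha
      by_contra ha0
      obtain ⟨n, u, rfl⟩ : ∃ (n : ℕ) (u : ℤ_[p]ˣ), a = (u : ℤ_[p]) * (p : ℤ_[p]) ^ n := by
        refine ⟨a.valuation, PadicInt.unitCoeff ha0, ?_⟩
        exact PadicInt.unitCoeff_spec ha0
      rw [map_mul, map_pow, map_natCast, mul_eq_zero] at ha
      rcases ha with ha | ha
      · exact (u.isUnit.map (algebraMap ℤ_[p] O)).ne_zero ha
      · exact pow_ne_zero n hp0 ha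
    exact Module.isTorsionFree_iff_algebraMap_injective.2 hinj
  infer_instance

end PadicFinite

end Fermat.Agent.TW
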