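/-
Project ONE MACHINE, block [F], [RO] layer, cell (R3') (helper27; prefix `twfo_`):
transfer of linear relations between a subspace `U ⊆ K ⊗ Tp` and its lattice
`L = {w ∈ O ⊗ Tp | ι w ∈ U}` (`pkb_lat (pkb_iota ..) U`).

* `twfo_lat_eq`     : `g_K u = c u` on `U`  ⟹ `g_O w = c w` on `L`;
* `twfo_lat_stable` : `g_K U ⊆ U`          ⟹ `g_O L ⊆ L`;
* `twfo_lat_sq`     : `g_O (g_O w) = c w` on `L` ⟹ `g_K (g_K u) = c u` on `U`;
* `twfo_lat_ne_bot` : `U ≠ 0 ⟹ L ≠ 0`.
-/
import Mathlib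
import Fermat.Agent.JT3.Pack.Main

set_option autoImplicit false
set_option linter.unusedSectionVars false
set_option linter.unusedVariables false
set_option linter.style.haveILetI false
set_option synthInstance.maxHeartbeats 400000
set_option maxHeartbeats 1000000

noncomputable section

namespace Fermat.Agent.TW

open IsLocalRing TensorProduct Fermat.Agent.JT3

variable (p : ℕ) [Fact p.Prime]
  {Tp : Type} [AddCommGroup Tp] [Module ℤ_[p] Tp] [Module.Free ℤ_[p] Tp] [Module.Finite ℤ_[p] Tp]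
  (O : Type) [CommRing O] [IsDomain O] [IsDiscreteValuationRing O]
  [IsAdicComplete (maximalIdeal O) O] [CharZero O] [Algebra ℤ_[p] O]
  (K : Type) [Field K] [Algebra O K] [IsFractionRing O K] [Algebra ℤ_[p] K]
  [IsScalarTower ℤ_[p] O K]
  (U : Submodule K (K ⊗[ℤ_[p]] Tp))

/-- the lattice of `U`. -/
abbrev twfo_L : Submodule O (O ⊗[ℤ_[p]] Tp) := pkb_lat (pkb_iota ℤ_[p] O K Tp) U

theorem twfo_mem_L (w : O ⊗[ℤ_[p]] Tp) : w ∈ twfo_L p O K U ↔ pkb_iota ℤ_[p] O K Tp w ∈ U :=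
  Iff.rfl

theorem twfo_lat_eq (g : Module.End ℤ_[p] Tp) (c : O)
    (h : ∀ u ∈ U, g.baseChange K u = algebraMap O K c • u) :
    ∀ w ∈ twfo_L p O K U, g.baseChange O w = c • w := by
  intro w hw
  apply pk_iota_injective ℤ_[p] O K Tp (IsFractionRing.injective O K)
  rw [pkb_iota_baseChange, h _ hw, map_smul, algebraMap_smul]

theorem twfo_lat_stable (g : Module.End ℤ_[p] Tp) (h : ∀ u ∈ U, g.baseChange K u ∈ U) :
    ∀ w ∈ twfo_L p O K U, g.baseChange O w ∈ twfo_L p O K U := by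
  intro w hw
  rw [twfo_mem_L, pkb_iota_baseChange]
  exact h _ hw

theorem twfo_lat_sq (g : Module.End ℤ_[p] Tp) (c : O)
    (h : ∀ w ∈ twfo_L p O K U, g.baseChange O (g.baseChange O w) = c • w) :
    ∀ u ∈ U, g.baseChange K (g.baseChange K u) = algebraMap O K c • u := by
  have key : ∀ x ∈ Submodule.span K
      (pkb_iota ℤ_[p] O K Tp '' (pkb_lat (pkb_iota ℤ_[p] O K Tp) U : Set (O ⊗[ℤ_[p]] Tp))),
      g.baseChange K (g.baseChange K x) = algebraMap O K c • x := by
    intro x hx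
    induction hx using Submodule.span_induction with
    | mem x hx =>
      obtain ⟨w, hw, rfl⟩ := hx
      rw [← pkb_iota_baseChange, ← pkb_iota_baseChange, h w hw, map_smul, algebraMap_smul]
    | zero => simp
    | add x y _ _ hx hy => rw [map_add, map_add, hx, hy, smul_add]
    | smul a x _ hx => rw [map_smul, map_smul, hx, smul_comm]
  exact fun u hu => key u (pk_le_span_lat ℤ_[p] O K Tp U hu)

theorem twfo_lat_ne_bot (hU : U ≠ ⊥) : ∃ w ∈ twfo_L p O K U, w ≠ 0 := by
  by_contra hcon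
  push Not at hcon
  apply hU
  rw [eq_bot_iff]
  refine (pk_le_span_lat ℤ_[p] O K Tp U).trans ?_
  rw [Submodule.span_le]
  rintro _ ⟨w, hw, rfl⟩
  rw [hcon w hw, map_zero]
  exact Submodule.zero_mem _

end Fermat.Agent.TW
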