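/-
Project ONE MACHINE, block [F], [RO] layer, cell (R2) (helper27; prefix `twfo_`): THE ABSTRACT HEART.

* `twfo_split`  : an involution on a nonzero stable subspace has a nonzero eigenvector
                  with eigenvalue `±1`;
* `twfo_eis`    : **[EIS] for a family**: `ζ : L →+ J[m]` (`L` a module over `O`), `ν` additive on
                  `J[m]` with values in `(ZMod m)^Sg`, weights `k` (units) with `k_i ν_i(ζ w) = c(w)`
                  (MONO), `ν ∘ T = B ∘ ν`, `B (1/k) = r (1/k)`, `T (ζ w) = ζ (a w)`, and `a - r` a unit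
                  of `O`: then `ν ∘ ζ = 0`;
* `twfo_socle`  : **the socle step**: `D : L →+ X` additive, killing `𝔪^{n₀} L`, not zero: there is
                  `w` with `D w ≠ 0` and `D (b w) = 0` for all `b ∈ 𝔪`.
`import Mathlib` only.
-/
import Mathlib

set_option autoImplicit false

namespace Fermat.Agent.TW

/-- an involution on a nonzero stable subspace has a nonzero `±1`-eigenvector there. -/
theorem twfo_split {K V : Type*} [Field K] [AddCommGroup V] [Module K V]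
    (w : Module.End K V) (hw : ∀ v, w (w v) = v) (E : Submodule K V) (hE0 : E ≠ ⊥)
    (hEw : ∀ v ∈ E, w v ∈ E) :
    ∃ ε : ℤ, (ε = 1 ∨ ε = -1) ∧ ∃ v ∈ E, v ≠ 0 ∧ w v = ε • v := by
  obtain ⟨v, hvE, hv0⟩ := (Submodule.ne_bot_iff E).1 hE0
  by_cases h1 : v + w v = 0
  · refine ⟨-1, Or.inr rfl, v, hvE, hv0, ?_⟩
    rw [neg_one_zsmul]
    exact (neg_eq_of_add_eq_zero_right h1).symm
  · refine ⟨1, Or.inl rfl, v + w v, E.add_mem hvE (hEw v hvE), h1, ?_⟩
    rw [one_zsmul, map_add, hw, add_comm]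

section Eis

variable {O : Type*} [CommRing O] {L : Type*} [AddCommGroup L] [Module O L]
  {J : Type*} [AddCommGroup J] {Sg : Type*} {m : ℕ} [NeZero m]

/-- an additive map commutes with the scalars of `ZMod m` on `(ZMod m)^Sg`. -/
theorem twfo_map_zmod_smul (B : (Sg → ZMod m) →+ (Sg → ZMod m)) (c : ZMod m)
    (v : Sg → ZMod m) : B (c • v) = c • B v := by
  have h : ∀ x : Sg → ZMod m, c • x = c.val • x := by
    intro x
    funext i
    rw [Pi.smul_apply, Pi.smul_apply, smul_eq_mul, nsmul_eq_mul, ZMod.natCast_zmod_val]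
  rw [h, h, map_nsmul]

/-- **[EIS] for a family.** -/
theorem twfo_eis (ζ : L →+ J) (hζ : ∀ w, m • ζ w = 0)
    (ν : J → (Sg → ZMod m))
    (hνadd : ∀ z z' : J, m • z = 0 → m • z' = 0 → ν (z + z') = ν z + ν z')
    (k : Sg → ZMod m) (hk : ∀ i, IsUnit (k i))
    (hmono : ∀ w, ∃ c : ZMod m, ∀ i, k i * ν (ζ w) i = c)
    (T : J → J) (B : (Sg → ZMod m) →+ (Sg → ZMod m))
    (hT : ∀ z, m • z = 0 → ν (T z) = B (ν z))
    (r : ℕ) (hB : B (fun i => (k i)⁻¹) = (r : ZMod m) • fun i => (k i)⁻¹)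
    (a : O) (hTζ : ∀ w, T (ζ w) = ζ (a • w)) (hu : IsUnit (a - (r : O))) :
    ∀ w, ν (ζ w) = 0 := by
  rcases isEmpty_or_nonempty Sg with hE | ⟨⟨i₀⟩⟩
  · intro w
    funext i
    exact (hE.false i).elim
  have hkinv : ∀ i, (k i)⁻¹ * k i = 1 := fun i => ZMod.inv_mul_of_unit _ (hk i)
  -- the constant
  have hcadd : ∀ w w' : L, k i₀ * ν (ζ (w + w')) i₀ = k i₀ * ν (ζ w) i₀ + k i₀ * ν (ζ w') i₀ := by
    intro w w'
    rw [map_add, hνadd _ _ (hζ w) (hζ w'), Pi.add_apply, mul_add]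
  let c : L →+ ZMod m := AddMonoidHom.mk' (fun w => k i₀ * ν (ζ w) i₀) hcadd
  have hc : ∀ w, c w = k i₀ * ν (ζ w) i₀ := fun _ => rfl
  have hν1 : ∀ w, ν (ζ w) = c w • fun i => (k i)⁻¹ := by
    intro w
    obtain ⟨c', hc'⟩ := hmono w
    funext i
    rw [Pi.smul_apply, smul_eq_mul, hc, hc' i₀, ← hc' i, mul_comm, ← mul_assoc, hkinv, one_mul]
  -- `c (a w) = r c w`
  have hca : ∀ w, c (a • w) = (r : ZMod m) * c w := by
    intro w
    have h1 : ν (T (ζ w)) = (c w * (r : ZMod m)) • fun i => (k i)⁻¹ := by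
      rw [hT _ (hζ w), hν1 w, twfo_map_zmod_smul, hB, smul_smul]
    rw [hTζ, hν1 (a • w)] at h1
    have h2 := congrFun h1 i₀
    rw [Pi.smul_apply, Pi.smul_apply, smul_eq_mul, smul_eq_mul] at h2
    have h3 := congrArg (fun x => x * k i₀) h2
    simp only [mul_assoc, hkinv, mul_one] at h3
    rw [h3, mul_comm]
  have hcr : ∀ w, c ((r : O) • w) = (r : ZMod m) * c w := by
    intro w
    rw [Nat.cast_smul_eq_nsmul, map_nsmul, nsmul_eq_mul]
  have hcu : ∀ w, c ((a - (r : O)) • w) = 0 := by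
    intro w
    rw [sub_smul, map_sub, hca, hcr, sub_self]
  intro w
  obtain ⟨u, hu'⟩ := hu
  have hw : w = (a - (r : O)) • ((↑u⁻¹ : O) • w) := by
    rw [smul_smul, ← hu', Units.mul_inv, one_smul]
  rw [hν1 w, hw, hcu, zero_smul]

end Eis

/-- **the socle step.** -/
theorem twfo_socle {O : Type*} [CommRing O] (𝔪 : Ideal O) {L : Type*} [AddCommGroup L]
    [Module O L] {X : Type*} [AddCommGroup X] (D : L →+ X)
    (hnil : ∃ n₀ : ℕ, ∀ a ∈ 𝔪 ^ n₀, ∀ w, D (a • w) = 0)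
    (w₀ : L) (hw₀ : D w₀ ≠ 0) :
    ∃ w : L, D w ≠ 0 ∧ ∀ b ∈ 𝔪, D (b • w) = 0 := by
  classical
  have hex : ∃ j : ℕ, ∀ a ∈ 𝔪 ^ j, ∀ w, D (a • w) = 0 := hnil
  have hj0 : Nat.find hex ≠ 0 := by
    intro h0
    have h1 := Nat.find_spec hex
    rw [h0] at h1
    apply hw₀
    have := h1 1 (by rw [pow_zero, Ideal.one_eq_top]; trivial) w₀
    rwa [one_smul] at this
  obtain ⟨j, hj⟩ := Nat.exists_eq_succ_of_ne_zero hj0
  have hmin : ¬ ∀ a ∈ 𝔪 ^ j, ∀ w, D (a • w) = 0 :=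
    Nat.find_min hex (by rw [hj]; exact Nat.lt_succ_self j)
  push Not at hmin
  obtain ⟨a, ha, w, hw⟩ := hmin
  refine ⟨a • w, hw, fun b hb => ?_⟩
  have h1 := Nat.find_spec hex
  rw [hj] at h1
  rw [smul_smul]
  refine h1 (b * a) ?_ w
  rw [pow_succ']
  exact Ideal.mul_mem_mul hb ha

end Fermat.Agent.TW
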