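/-
Project ONE MACHINE, block [F], [RO] layer (helper27; prefix `twfo_`): coordinates of `O ⊗[R] T`
along the functionals of `O`.  Mathlib only.

`O` an `R`-algebra, `T` an `R`-module.  For `f : O →ₗ[R] R` the evaluation
`twfo_ev f : O ⊗[R] T →ₗ[R] T`, `o ⊗ x ↦ f o • x`:

* `twfo_ev_baseChange` : it commutes with `g.baseChange O` for every `g : End_R T`
                         (Galois action, Hecke operators);
* `twfo_ev_smul`       : `ev f (a • w) = ev (f ∘ (a * ·)) w` (the `O`-module structure permutes the
                         functionals);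
* `twfo_ev_ext`        : if `O` is `R`-free, the evaluations separate the points of `O ⊗[R] T`.
-/
import Mathlib

set_option autoImplicit false

namespace Fermat.Agent.TW

open TensorProduct

variable {R : Type*} [CommRing R] {O : Type*} [CommRing O] [Algebra R O]
  {T : Type*} [AddCommGroup T] [Module R T]

/-- evaluation of the first tensor factor by a functional: `o ⊗ x ↦ f o • x`. -/
noncomputable def twfo_ev (f : O →ₗ[R] R) : O ⊗[R] T →ₗ[R] T :=
  (TensorProduct.lid R T).toLinearMap ∘ₗ f.rTensor T

@[simp] theorem twfo_ev_tmul (f : O →ₗ[R] R) (o : O) (x : T) :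
    twfo_ev f (o ⊗ₜ[R] x) = f o • x := by
  simp [twfo_ev]

/-- the evaluations commute with base-changed endomorphisms. -/
theorem twfo_ev_baseChange (f : O →ₗ[R] R) (g : Module.End R T) (w : O ⊗[R] T) :
    twfo_ev f (g.baseChange O w) = g (twfo_ev f w) := by
  induction w using TensorProduct.induction_on with
  | zero => simp
  | tmul o x => simp
  | add x y hx hy => rw [map_add, map_add, hx, hy, map_add, map_add]

/-- the functional `o ↦ f (a * o)`. -/
noncomputable def twfo_shift (f : O →ₗ[R] R) (a : O) : O →ₗ[R] R :=
  f ∘ₗ LinearMap.mulLeft R a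

@[simp] theorem twfo_shift_apply (f : O →ₗ[R] R) (a o : O) : twfo_shift f a o = f (a * o) := rfl

/-- the `O`-module structure of `O ⊗[R] T` permutes the evaluations. -/
theorem twfo_ev_smul (f : O →ₗ[R] R) (a : O) (w : O ⊗[R] T) :
    twfo_ev f (a • w) = twfo_ev (twfo_shift f a) w := by
  induction w using TensorProduct.induction_on with
  | zero => simp
  | tmul o x => simp [TensorProduct.smul_tmul']
  | add x y hx hy => rw [smul_add, map_add, map_add, hx, hy]

/-- if `O` is free over `R`, the evaluations separate the points of `O ⊗[R] T`. -/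
theorem twfo_ev_ext [Module.Free R O] (w : O ⊗[R] T) (h : ∀ f : O →ₗ[R] R, twfo_ev f w = 0) :
    w = 0 := by
  classical
  let b := Module.Free.chooseBasis R O
  apply (TensorProduct.equivFinsuppOfBasisLeft b).injective
  rw [map_zero]
  ext i
  rw [TensorProduct.equivFinsuppOfBasisLeft_apply, Finsupp.zero_apply]
  exact h (b.coord i)

end Fermat.Agent.TW
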