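/-
Project ONE MACHINE, block [F], [RO] layer, cell (R3) (helper27; prefix `twfo_`):
THE ATKIN–LEHNER INVOLUTION ON THE TATE MODULE AND THE COORDINATE FAMILY.

* `twfo_Wt M q p hq hqM : End_{ℤ_p} (T_p J₀(M q))` := `tm_map (s44w_WJ M q)`; it is an involution
  (`twfo_Wt_sq`), commutes with Galois (`twfo_Wt_rho`) and with `T_ℓ`, `ℓ ∤ M q` (`twfo_Wt_hecke`);
* `twfo_zeta N p O f n : O ⊗[ℤ_p] T_p J₀(N) →+ J₀(N)`, `w ↦ (twfo_ev f w).1 n`  (`f : O →ₗ[ℤ_p] ℤ_p`):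
  `twfo_zeta_tors` (`p^n • ζ w = 0`), `twfo_zeta_bc` (`ζ (g.baseChange O w) = (g (ev f w)).1 n`),
  `twfo_zeta_rho`, `twfo_zeta_hecke`, `twfo_zeta_W`, `twfo_zeta_pow_smul` (`ζ (p^n b w) = 0`),
  `twfo_zeta_ext` (all coordinates vanish ⟹ `w = 0`, `O` free over `ℤ_p`).
-/
import Mathlib
import Fermat.Agent.JT3.Tate.Package
import Fermat.Agent.TW.Easy.WTwo
import Fermat.Agent.TW.Easy.RO.Coord

set_option autoImplicit false
set_option linter.unusedSectionVars false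
set_option linter.unusedVariables false
set_option linter.style.haveILetI false
set_option synthInstance.maxHeartbeats 400000
set_option maxHeartbeats 1000000

noncomputable section

namespace Fermat.Agent.TW

open TensorProduct ModularCurve AlgebraicCurve Fermat.Agent.JT3 Fermat.Agent.S44

local notation "GQ" => (AlgebraicClosure ℚ ≃ₐ[ℚ] AlgebraicClosure ℚ)

section W

variable (M q p : ℕ) [NeZero M] [NeZero q] [NeZero (M * q)] [Fact p.Prime] (hq : q.Prime)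
  (hqM : ¬ q ∣ M)

/-- the Atkin–Lehner involution `W_q` on `T_p J₀(M q)`. -/
def twfo_Wt : Module.End ℤ_[p] (tj_T (M * q) p) :=
  tm_map (JZero (M * q)) p (s44w_WJ M q hq hqM)

theorem twfo_Wt_apply (x : tj_T (M * q) p) (n : ℕ) :
    (twfo_Wt M q p hq hqM x).1 n = s44w_WJ M q hq hqM (x.1 n) := rfl

theorem twfo_Wt_sq (x : tj_T (M * q) p) : twfo_Wt M q p hq hqM (twfo_Wt M q p hq hqM x) = x :=
  tm_ext fun n => twf_w_WJ_WJ M q hq hqM (p ^ n) (pow_ne_zero n (Fact.out : p.Prime).ne_zero)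
    (x.1 n) (tm_tor x n)

theorem twfo_Wt_rho (σ : GQ) (x : tj_T (M * q) p) :
    twfo_Wt M q p hq hqM (tj_rho (M * q) p σ x) = tj_rho (M * q) p σ (twfo_Wt M q p hq hqM x) :=
  tm_ext fun n => s44w_WJ_smul M q hq hqM σ (x.1 n)

theorem twfo_Wt_hecke (ℓ : Nat.Primes) (hℓN : ¬ (ℓ : ℕ) ∣ M * q) (x : tj_T (M * q) p) :
    twfo_Wt M q p hq hqM (tj_hecke (M * q) p ℓ x) =
      tj_hecke (M * q) p ℓ (twfo_Wt M q p hq hqM x) := by
  haveI : NeZero (ℓ : ℕ) := ⟨ℓ.2.ne_zero⟩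
  exact tm_ext fun n => s44w_WJ_hecke M q (ℓ : ℕ) hq hqM ℓ.2 hℓN (x.1 n) (p ^ n)
    (pow_ne_zero n (Fact.out : p.Prime).ne_zero) (tm_tor x n)

end W

section Zeta

variable (N p : ℕ) [NeZero N] [Fact p.Prime] (O : Type*) [CommRing O] [Algebra ℤ_[p] O]

/-- the level-`n` coordinate of `w ∈ O ⊗ T_p J₀(N)` along the functional `f`. -/
def twfo_zeta (f : O →ₗ[ℤ_[p]] ℤ_[p]) (n : ℕ) : O ⊗[ℤ_[p]] tj_T N p →+ JZero N :=
  (tm_proj (JZero N) p n).comp (twfo_ev (T := tj_T N p) f).toAddMonoidHom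

theorem twfo_zeta_apply (f : O →ₗ[ℤ_[p]] ℤ_[p]) (n : ℕ) (w : O ⊗[ℤ_[p]] tj_T N p) :
    twfo_zeta N p O f n w = (twfo_ev f w).1 n := rfl

theorem twfo_zeta_tors (f : O →ₗ[ℤ_[p]] ℤ_[p]) (n : ℕ) (w : O ⊗[ℤ_[p]] tj_T N p) :
    p ^ n • twfo_zeta N p O f n w = 0 := tm_tor _ n

theorem twfo_zeta_bc (f : O →ₗ[ℤ_[p]] ℤ_[p]) (n : ℕ) (g : Module.End ℤ_[p] (tj_T N p))
    (w : O ⊗[ℤ_[p]] tj_T N p) :
    twfo_zeta N p O f n (g.baseChange O w) = (g (twfo_ev f w)).1 n := by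
  rw [twfo_zeta_apply, twfo_ev_baseChange]

theorem twfo_zeta_rho (f : O →ₗ[ℤ_[p]] ℤ_[p]) (n : ℕ) (σ : GQ) (w : O ⊗[ℤ_[p]] tj_T N p) :
    twfo_zeta N p O f n ((tj_rho N p σ).baseChange O w) = σ • twfo_zeta N p O f n w := by
  rw [twfo_zeta_bc]
  rfl

theorem twfo_zeta_hecke (f : O →ₗ[ℤ_[p]] ℤ_[p]) (n : ℕ) (ℓ : Nat.Primes)
    (w : O ⊗[ℤ_[p]] tj_T N p) :
    twfo_zeta N p O f n ((tj_hecke N p ℓ).baseChange O w) =
      heckeOperatorBar N ℓ (twfo_zeta N p O f n w) := by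
  rw [twfo_zeta_bc]
  rfl

/-- `ζ` kills `p^n O ⊗ T`. -/
theorem twfo_zeta_pow_smul (f : O →ₗ[ℤ_[p]] ℤ_[p]) (n : ℕ) (b : O) (w : O ⊗[ℤ_[p]] tj_T N p) :
    twfo_zeta N p O f n (((p : O) ^ n * b) • w) = 0 := by
  have h1 : ((p : O) ^ n * b) • w = ((p : ℤ_[p]) ^ n) • (b • w) := by
    rw [mul_smul, ← algebraMap_smul O ((p : ℤ_[p]) ^ n) (b • w), map_pow, map_natCast]
  rw [h1, twfo_zeta_apply, map_smul]
  exact tm_smul_pow_apply _ n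

/-- the coordinates separate the points. -/
theorem twfo_zeta_ext [Module.Free ℤ_[p] O] (w : O ⊗[ℤ_[p]] tj_T N p)
    (h : ∀ (f : O →ₗ[ℤ_[p]] ℤ_[p]) (n : ℕ), twfo_zeta N p O f n w = 0) : w = 0 :=
  twfo_ev_ext w fun f => tm_ext fun n => h f n

end Zeta

section ZetaW

variable (M q p : ℕ) [NeZero M] [NeZero q] [NeZero (M * q)] [Fact p.Prime] (hq : q.Prime)
  (hqM : ¬ q ∣ M) (O : Type*) [CommRing O] [Algebra ℤ_[p] O]

theorem twfo_zeta_W (f : O →ₗ[ℤ_[p]] ℤ_[p]) (n : ℕ) (w : O ⊗[ℤ_[p]] tj_T (M * q) p) :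
    twfo_zeta (M * q) p O f n ((twfo_Wt M q p hq hqM).baseChange O w) =
      s44w_WJ M q hq hqM (twfo_zeta (M * q) p O f n w) := by
  rw [twfo_zeta_bc]
  rfl

end ZetaW

end Fermat.Agent.TW
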