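/-
Project ONE MACHINE, block [F], [RO] layer, cell (R1) [GLUE] (helper27; prefix `twfo_`).

Setting of S30/S36 packaging (`pk_core`, `pku_core_abs`): `Tp` a finite free `ℤ_p`-module with a
continuous Galois action `ρ`, commuting Hecke operators `Tl ℓ` and the Eichler–Shimura relation;
`O` a complete DVR of characteristic `0`, `K = Frac O`; `a ℓ ∈ O` an eigensystem occurring in
`K ⊗ Tp`.  Let `ρ₀ : GaloisRepAdic O` be ANY representation with
`charpoly ρ₀(Frob_ℓ) = X² - a_ℓ X + ℓ` at the good primes, RESIDUALLY ABSOLUTELY IRREDUCIBLE and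
UNRAMIFIED at a prime `q ≠ p`.  Then the eigenspace contains a nonzero Galois-stable `U` such that

* every inertia group at `q` acts TRIVIALLY on `U`            [the geometry sees `ρ₀`], and
* no Frobenius element `φ` at `q` has `φ² = q²` on `U`         [det ρ₀(φ) = q, characteristic 0].

Proof: `pku_core_abs` (minimal stable `U`, Cayley–Hamilton relations on `U` with the traces of a
representation `ρ'` having the same Frobenius characteristic polynomials), helper2's transfer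
`twlg_tr_charpoly_eq` (so the relations hold with the traces and determinants of `ρ₀`), Burnside +
Nakayama `adic_span_range_eq_top`, and Boston–Lenstra–Ribet `ffc_blr_end`: the action of `G_ℚ` on
`U` factors through an (injective) algebra map `End_O(ρ₀.V) → End_O(U)`.
-/
import Mathlib
import Fermat.Agent.S36.PackU
import Fermat.Agent.TW.LG.Transfer
import Fermat.Agent.FF.Car.BLR
import Fermat.Agent.S53.Burnside
import Fermat.Agent.S58.CharpolyCmp
import Fermat.Agent.TW.Easy.RO.GlueAlg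

set_option autoImplicit false
set_option linter.unusedSectionVars false
set_option linter.unusedVariables false
set_option linter.style.haveILetI false
set_option synthInstance.maxHeartbeats 400000
set_option maxHeartbeats 1000000

noncomputable section

namespace Fermat.Agent.TW

open IsLocalRing TensorProduct Polynomial Fermat.Agent.JT3 Fermat.Agent.S36 Fermat.Agent.FF

local notation "GQ" => (AlgebraicClosure ℚ ≃ₐ[ℚ] AlgebraicClosure ℚ)
local notation "Qbar" => AlgebraicClosure ℚ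

section res

variable {O K V : Type*} [CommRing O] [Field K] [Algebra O K] [AddCommGroup V] [Module K V]
  [Module O V] [IsScalarTower O K V] {G : Type*} [Group G] (ρ : G →* Module.End K V)
  (U : Submodule K V) (hUst : ∀ g, U ≤ U.comap (ρ g))

/-- the restriction of a representation to a stable subspace, as `O`-linear endomorphisms of
`U` (`O → K` a ring map; the `O`-module structure on `U` is the restricted one). -/
def twfo_resO : G →* Module.End O ↥U where
  toFun g := ((ρ g).restrict (hUst g)).restrictScalars O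
  map_one' := by
    ext x
    simp
  map_mul' g h := by
    ext x
    simp [LinearMap.restrict_apply]

@[simp] theorem twfo_resO_coe (g : G) (u : ↥U) :
    ((twfo_resO (O := O) ρ U hUst g u : ↥U) : V) = ρ g (u : V) := rfl

include hUst in
/-- **Boston–Lenstra–Ribet on a stable subspace.**  `ρ₀ : G → GL(V₀)`, `V₀` free of rank two over
`O`, the `ρ₀ g` spanning `End_O V₀`; if every `g` satisfies ON `U` the characteristic polynomial
of `ρ₀ g`, then (i) `ρ₀ g = 1` implies `ρ g = 1` on `U`, and (ii) if `U ≠ 0` and `O → K` is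
injective, `ρ(g)² = c` on `U` implies `ρ₀(g)² = c`. -/
theorem twfo_blr_sub {V₀ : Type*} [AddCommGroup V₀] [Module O V₀]
    (b : Module.Basis (Fin 2) O V₀) (ρ₀ : G →* Module.End O V₀)
    (hspan : Submodule.span O (Set.range ρ₀) = ⊤)
    (hrel : ∀ g, ∀ u ∈ U, ρ g (ρ g u) - algebraMap O K (LinearMap.trace O V₀ (ρ₀ g)) • ρ g u
      + algebraMap O K (LinearMap.det (ρ₀ g)) • u = 0) :
    (∀ g, ρ₀ g = 1 → ∀ u ∈ U, ρ g u = u) ∧
    (U ≠ ⊥ → Function.Injective (algebraMap O K) → ∀ (g : G) (c : O),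
      (∀ u ∈ U, ρ g (ρ g u) = algebraMap O K c • u) →
        ρ₀ g * ρ₀ g = c • (1 : Module.End O V₀)) := by
  classical
  have hCH : ∀ g : G, twfo_resO (O := O) ρ U hUst g * twfo_resO (O := O) ρ U hUst g
      - LinearMap.trace O V₀ (ρ₀ g) • twfo_resO (O := O) ρ U hUst g
      + LinearMap.det (ρ₀ g) • (1 : Module.End O ↥U) = 0 := by
    intro g
    ext u
    have h4 := hrel g u.1 u.2
    simp only [LinearMap.add_apply, LinearMap.sub_apply, Module.End.mul_apply,
      LinearMap.smul_apply, Module.End.one_apply, LinearMap.zero_apply, Submodule.coe_add,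
      Submodule.coe_sub, Submodule.coe_smul_of_tower, twfo_resO_coe, Submodule.coe_zero]
    rw [← h4, algebraMap_smul, algebraMap_smul]
  obtain ⟨Φ, hΦ⟩ := ffc_blr_end b ρ₀ (twfo_resO (O := O) ρ U hUst) hspan hCH
  refine ⟨?_, ?_⟩
  · intro g hg u hu
    have h5 : twfo_resO (O := O) ρ U hUst g = 1 := by
      rw [← hΦ g, hg, map_one]
    have h6 := congrArg (fun f : Module.End O ↥U => ((f ⟨u, hu⟩ : ↥U) : V)) h5
    simpa using h6
  · intro hU0 hinjK g c hsq
    obtain ⟨u, huU, hu0⟩ := (Submodule.ne_bot_iff U).1 hU0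
    have hfaith : ∀ c : O, algebraMap O (Module.End O ↥U) c = 0 → c = 0 := by
      intro c hc
      have h7 := congrArg (fun f : Module.End O ↥U => ((f ⟨u, huU⟩ : ↥U) : V)) hc
      simp only [Module.algebraMap_end_apply, LinearMap.zero_apply, Submodule.coe_smul_of_tower,
        Submodule.coe_zero] at h7
      by_contra hc0
      apply hu0
      have h8 : (algebraMap O K c) • u = 0 := by rw [algebraMap_smul]; exact h7
      rcases smul_eq_zero.mp h8 with h9 | h9
      · exact absurd (hinjK (h9.trans (map_zero _).symm)) hc0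
      · exact h9
    have hΦinj : Function.Injective Φ := by
      let ψ : Module.End O V₀ ≃ₐ[O] Matrix (Fin 2) (Fin 2) O := LinearMap.toMatrixAlgEquiv b
      have hinj2 := twfo_matrix_algHom_injective (Φ.comp ψ.symm.toAlgHom) hfaith
      intro x y hxy
      have := hinj2 (a₁ := ψ x) (a₂ := ψ y) (by simpa using hxy)
      exact ψ.injective this
    apply hΦinj
    rw [map_mul, hΦ, map_smul, map_one]
    ext u
    have h10 := hsq u.1 u.2
    simp only [Module.End.mul_apply, LinearMap.smul_apply, Module.End.one_apply,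
      twfo_resO_coe, Submodule.coe_smul_of_tower]
    rw [h10, algebraMap_smul]

end res

section core

variable (p : ℕ) [Fact p.Prime] (N : ℕ) (S : Finset ℕ)
  {Tp : Type} [AddCommGroup Tp] [Module ℤ_[p] Tp] [Module.Free ℤ_[p] Tp] [Module.Finite ℤ_[p] Tp]
  (ρ : GQ →* Module.End ℤ_[p] Tp) (Tl : ℕ → Module.End ℤ_[p] Tp)
  (O : Type) [CommRing O] [IsDomain O] [IsDiscreteValuationRing O]
  [IsAdicComplete (maximalIdeal O) O] [CharZero O] [Algebra ℤ_[p] O]
  (K : Type) [Field K] [Algebra O K] [IsFractionRing O K] [Algebra ℤ_[p] K]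
  [IsScalarTower ℤ_[p] O K]

/-- **(R1) [GLUE].** -/
theorem twfo_glue (hpS : p ∈ S) (hNS : ∀ q : ℕ, q.Prime → q ∣ N → q ∈ S)
    (cont : GaloisActionIsAdicContinuous ℤ_[p] ρ)
    (unram : ∀ q : ℕ, q.Prime → ¬ q ∣ N → q ≠ p → ∀ P : ValuationSubring Qbar,
      P.LiesOverPrime q → ∀ σ ∈ P.inertiaSubgroupIn ℚ, ρ σ = 1)
    (Tl_ρ : ∀ (ℓ : ℕ) (σ : GQ), Commute (Tl ℓ) (ρ σ))
    (frob : ∀ ℓ : ℕ, pk_Good N S ℓ → ∀ A : ValuationSubring Qbar, A.LiesOverPrime ℓ →
      ∀ φ : GQ, A.IsFrobeniusAt φ ℓ → ρ φ * ρ φ - Tl ℓ * ρ φ + (ℓ : ℤ_[p]) • 1 = 0)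
    (hp : (p : O) ∈ maximalIdeal O) (a : ℕ → O)
    (hev : ∃ v : K ⊗[ℤ_[p]] Tp, v ≠ 0 ∧
      ∀ ℓ, pk_Good N S ℓ → (Tl ℓ).baseChange K v = algebraMap O K (a ℓ) • v)
    (ρ₀ : GaloisRepAdic O)
    (hρ₀ : ∀ ℓ : ℕ, pk_Good N S ℓ → ∀ A : ValuationSubring Qbar, A.LiesOverPrime ℓ →
      ∀ φ : GQ, A.IsFrobeniusAt φ ℓ →
        LinearMap.charpoly (ρ₀.ρ φ) = X ^ 2 - C (a ℓ) * X + C ((ℓ : O)))
    (habs : ρ₀.residual.IsAbsolutelyIrreducible)
    (q : ℕ) (hq : q.Prime) (hqp : q ≠ p) (hunr : ρ₀.IsUnramifiedAt q) :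
    ∃ U : Submodule K (K ⊗[ℤ_[p]] Tp), U ≠ ⊥ ∧
      (∀ σ, U ≤ U.comap (pk_bc K ρ σ)) ∧
      U ≤ pk_eigenspace p N S Tl O K a ∧
      (∀ A : ValuationSubring Qbar, A.LiesOverPrime q → ∀ s ∈ A.inertiaSubgroupIn ℚ,
        ∀ u ∈ U, pk_bc K ρ s u = u) ∧
      (∀ A : ValuationSubring Qbar, A.LiesOverPrime q → ∀ φ : GQ, A.IsFrobeniusAt φ q →
        ¬ ∀ u ∈ U, pk_bc K ρ φ (pk_bc K ρ φ u) = ((q : K) ^ 2) • u) := by
  classical
  have hinjK : Function.Injective (algebraMap O K) := IsFractionRing.injective O K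
  have : CharZero K := charZero_of_injective_algebraMap hinjK
  have : IsLocalHom (algebraMap ℤ_[p] O) := pk_isLocalHom_padic p hp _
  have hW0 : pk_eigenspace p N S Tl O K a ≠ ⊥ := by
    obtain ⟨v, hv0, hv⟩ := hev
    intro h
    apply hv0
    have : v ∈ pk_eigenspace p N S Tl O K a := hv
    rw [h, Submodule.mem_bot] at this
    exact this
  obtain ⟨ρ', U, hUW, hU0, hUst, h1, h2, h3⟩ := pku_core_abs p N S hpS hNS hp
    (pkb_iota ℤ_[p] O K Tp)
    (pkb_iota_isBaseChange ℤ_[p] O K Tp) (pk_iota_injective ℤ_[p] O K Tp hinjK)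
    (pk_le_span_lat ℤ_[p] O K Tp) (pk_bc O ρ) (pk_bc K ρ)
    (fun σ m => pkb_iota_baseChange ℤ_[p] O K Tp (ρ σ) m)
    (pk_adicContinuous_bc ρ cont)
    (fun q hq hqN hqp P hP σ hσ => by
      rw [pk_bc_apply, unram q hq hqN hqp P hP σ hσ, LinearMap.baseChange_one])
    a (pk_eigenspace p N S Tl O K a) hW0
    (fun σ u hu => pk_eigenspace_stable p N S ρ Tl O K Tl_ρ a σ hu)
    (fun ℓ hℓ A hA φ hφ u hu =>
      pk_frob_eigenspace p N S ρ Tl O K a hℓ φ Tl_ρ (frob ℓ hℓ A hA φ hφ) u hu)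
  -- the characteristic polynomials of `ρ'` and `ρ₀` agree everywhere
  have hgood : ∀ ℓ : ℕ, ℓ.Prime → ℓ ∉ S → pk_Good N S ℓ := fun ℓ hℓ hℓS =>
    ⟨hℓ, fun hdvd => hℓS (hNS ℓ hℓ hdvd), fun h => hℓS (Finset.mem_coe.1 h)⟩
  have hcp : ∀ g : GQ, LinearMap.charpoly (ρ₀.ρ g) = LinearMap.charpoly (ρ'.ρ g) :=
    twlg_tr_charpoly_eq ρ₀ ρ' S (fun ℓ hℓ hℓS A hA φ hφ => by
      rw [hρ₀ ℓ (hgood ℓ hℓ hℓS) A hA φ hφ, h1 ℓ (hgood ℓ hℓ hℓS) A hA φ hφ])
  -- trace and determinant of `ρ₀ g` are the `t`, `ε` of the relation on `U`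
  have htd : ∀ g : GQ, ∀ t : O,
      LinearMap.charpoly (ρ'.ρ g) = X ^ 2 - C t * X + C (cya_eps p O hp g) →
      LinearMap.trace O ρ₀.V (ρ₀.ρ g) = t ∧ LinearMap.det (ρ₀.ρ g) = cya_eps p O hp g := by
    intro g t ht
    have e := (Fermat.Agent.S58.s58z_charpoly_two ρ₀.finrank_eq (ρ₀.ρ g)).symm.trans
      ((hcp g).trans ht)
    have e1 := congrArg (fun P : O[X] => P.coeff 1) e
    have e0 := congrArg (fun P : O[X] => P.coeff 0) e
    simp only [coeff_add, coeff_sub, coeff_X_pow, coeff_C_mul, coeff_C, coeff_X] at e1 e0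
    norm_num at e1 e0
    exact ⟨e1, e0⟩
  -- Boston–Lenstra–Ribet
  let b : Module.Basis (Fin 2) O ρ₀.V := Module.finBasisOfFinrankEq O ρ₀.V ρ₀.finrank_eq
  have hspan : Submodule.span O (Set.range ρ₀.ρ) = ⊤ :=
    Fermat.Agent.S53.adic_span_range_eq_top ρ₀ habs
  have hrel : ∀ g : GQ, ∀ u ∈ U, pk_bc K ρ g (pk_bc K ρ g u)
      - algebraMap O K (LinearMap.trace O ρ₀.V (ρ₀.ρ g)) • pk_bc K ρ g u
      + algebraMap O K (LinearMap.det (ρ₀.ρ g)) • u = 0 := by
    intro g u hu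
    obtain ⟨t, ht, hrel⟩ := h3 g
    obtain ⟨htr, hdet⟩ := htd g t ht
    rw [htr, hdet]
    exact hrel u hu
  obtain ⟨hI, hII⟩ := twfo_blr_sub (O := O) (pk_bc K ρ) U hUst b ρ₀.ρ hspan hrel
  refine ⟨U, hU0, hUst, hUW, ?_, ?_⟩
  · -- inertia at `q` acts trivially
    intro A hA s hs u hu
    exact hI s (hunr A hA s hs) u hu
  · -- no Frobenius with `φ² = q²`
    intro A hA φ hφ hsq
    have h9 : ρ₀.ρ φ * ρ₀.ρ φ = ((q : O) ^ 2) • (1 : Module.End O ρ₀.V) := by
      apply hII hU0 hinjK φ ((q : O) ^ 2)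
      intro u hu
      rw [hsq u hu, map_pow, map_natCast]
    -- `det ρ₀ φ = q`
    obtain ⟨t, ht, -⟩ := h3 φ
    have hdet : LinearMap.det (ρ₀.ρ φ) = (q : O) := by
      rw [(htd φ t ht).2]
      exact cya_eps_frob p O hp hq hqp A hA φ hφ
    exact twfo_end_no_square b (ρ₀.ρ φ) q hq.two_le h9 hdet

end core

end Fermat.Agent.TW
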