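/-
Project ONE MACHINE, block [F], [RO] layer, cell (R1') (helper27; prefix `twfo_`).

`twfo_glue_in` = `twfo_glue` INSIDE a given nonzero Galois-stable subspace `W'` of the eigenspace
(used with `W' = eigenspace ∩ ker (W_q - ε)`, so that the Atkin–Lehner involution acts on `U` by the
sign `ε`).
-/
import Mathlib
import Fermat.Agent.TW.Easy.RO.Glue

set_option autoImplicit false
set_option linter.unusedSectionVars false
set_option linter.unusedVariables false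
set_option linter.style.haveILetI false
set_option synthInstance.maxHeartbeats 400000
set_option maxHeartbeats 1000000

noncomputable section

namespace Fermat.Agent.TW

open IsLocalRing TensorProduct Polynomial Fermat.Agent.JT3 Fermat.Agent.S36 Fermat.Agent.FF

local notation "GQ" => (AlgebraicClosure ℚ ≃ₐ[ℚ] AlgebraicClosure ℚ)
local notation "Qbar" => AlgebraicClosure ℚ

section core

variable (p : ℕ) [Fact p.Prime] (N : ℕ) (S : Finset ℕ)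
  {Tp : Type} [AddCommGroup Tp] [Module ℤ_[p] Tp] [Module.Free ℤ_[p] Tp] [Module.Finite ℤ_[p] Tp]
  (ρ : GQ →* Module.End ℤ_[p] Tp) (Tl : ℕ → Module.End ℤ_[p] Tp)
  (O : Type) [CommRing O] [IsDomain O] [IsDiscreteValuationRing O]
  [IsAdicComplete (maximalIdeal O) O] [CharZero O] [Algebra ℤ_[p] O]
  (K : Type) [Field K] [Algebra O K] [IsFractionRing O K] [Algebra ℤ_[p] K]
  [IsScalarTower ℤ_[p] O K]

/-- **(R1') [GLUE] inside a stable subspace `W'` of the eigenspace.** -/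
theorem twfo_glue_in (hpS : p ∈ S) (hNS : ∀ q : ℕ, q.Prime → q ∣ N → q ∈ S)
    (cont : GaloisActionIsAdicContinuous ℤ_[p] ρ)
    (unram : ∀ q : ℕ, q.Prime → ¬ q ∣ N → q ≠ p → ∀ P : ValuationSubring Qbar,
      P.LiesOverPrime q → ∀ σ ∈ P.inertiaSubgroupIn ℚ, ρ σ = 1)
    (Tl_ρ : ∀ (ℓ : ℕ) (σ : GQ), Commute (Tl ℓ) (ρ σ))
    (frob : ∀ ℓ : ℕ, pk_Good N S ℓ → ∀ A : ValuationSubring Qbar, A.LiesOverPrime ℓ →
      ∀ φ : GQ, A.IsFrobeniusAt φ ℓ → ρ φ * ρ φ - Tl ℓ * ρ φ + (ℓ : ℤ_[p]) • 1 = 0)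
    (hp : (p : O) ∈ maximalIdeal O) (a : ℕ → O)
    (W' : Submodule K (K ⊗[ℤ_[p]] Tp)) (hW0 : W' ≠ ⊥)
    (hWle : W' ≤ pk_eigenspace p N S Tl O K a)
    (hWst : ∀ σ, W' ≤ W'.comap (pk_bc K ρ σ))
    (ρ₀ : GaloisRepAdic O)
    (hρ₀ : ∀ ℓ : ℕ, pk_Good N S ℓ → ∀ A : ValuationSubring Qbar, A.LiesOverPrime ℓ →
      ∀ φ : GQ, A.IsFrobeniusAt φ ℓ →
        LinearMap.charpoly (ρ₀.ρ φ) = X ^ 2 - C (a ℓ) * X + C ((ℓ : O)))
    (habs : ρ₀.residual.IsAbsolutelyIrreducible)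
    (q : ℕ) (hq : q.Prime) (hqp : q ≠ p) (hunr : ρ₀.IsUnramifiedAt q) :
    ∃ U : Submodule K (K ⊗[ℤ_[p]] Tp), U ≠ ⊥ ∧
      (∀ σ, U ≤ U.comap (pk_bc K ρ σ)) ∧
      U ≤ W' ∧
      (∀ A : ValuationSubring Qbar, A.LiesOverPrime q → ∀ s ∈ A.inertiaSubgroupIn ℚ,
        ∀ u ∈ U, pk_bc K ρ s u = u) ∧
      (∀ A : ValuationSubring Qbar, A.LiesOverPrime q → ∀ φ : GQ, A.IsFrobeniusAt φ q →
        ¬ ∀ u ∈ U, pk_bc K ρ φ (pk_bc K ρ φ u) = ((q : K) ^ 2) • u) := by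
  classical
  have hinjK : Function.Injective (algebraMap O K) := IsFractionRing.injective O K
  have : CharZero K := charZero_of_injective_algebraMap hinjK
  have : IsLocalHom (algebraMap ℤ_[p] O) := pk_isLocalHom_padic p hp _
  obtain ⟨ρ', U, hUW, hU0, hUst, h1, h2, h3⟩ := pku_core_abs p N S hpS hNS hp
    (pkb_iota ℤ_[p] O K Tp)
    (pkb_iota_isBaseChange ℤ_[p] O K Tp) (pk_iota_injective ℤ_[p] O K Tp hinjK)
    (pk_le_span_lat ℤ_[p] O K Tp) (pk_bc O ρ) (pk_bc K ρ)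
    (fun σ m => pkb_iota_baseChange ℤ_[p] O K Tp (ρ σ) m)
    (pk_adicContinuous_bc ρ cont)
    (fun q hq hqN hqp P hP σ hσ => by
      rw [pk_bc_apply, unram q hq hqN hqp P hP σ hσ, LinearMap.baseChange_one])
    a W' hW0
    (fun σ u hu => hWst σ hu)
    (fun ℓ hℓ A hA φ hφ u hu =>
      pk_frob_eigenspace p N S ρ Tl O K a hℓ φ Tl_ρ (frob ℓ hℓ A hA φ hφ) u (hWle hu))
  -- the characteristic polynomials of `ρ'` and `ρ₀` agree everywhere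
  have hgood : ∀ ℓ : ℕ, ℓ.Prime → ℓ ∉ S → pk_Good N S ℓ := fun ℓ hℓ hℓS =>
    ⟨hℓ, fun hdvd => hℓS (hNS ℓ hℓ hdvd), fun h => hℓS (Finset.mem_coe.1 h)⟩
  have hcp : ∀ g : GQ, LinearMap.charpoly (ρ₀.ρ g) = LinearMap.charpoly (ρ'.ρ g) :=
    twlg_tr_charpoly_eq ρ₀ ρ' S (fun ℓ hℓ hℓS A hA φ hφ => by
      rw [hρ₀ ℓ (hgood ℓ hℓ hℓS) A hA φ hφ, h1 ℓ (hgood ℓ hℓ hℓS) A hA φ hφ])
  -- trace and determinant of `ρ₀ g` are the `t`, `ε` of the relation on `U`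
  have htd : ∀ g : GQ, ∀ t : O,
      LinearMap.charpoly (ρ'.ρ g) = X ^ 2 - C t * X + C (cya_eps p O hp g) →
      LinearMap.trace O ρ₀.V (ρ₀.ρ g) = t ∧ LinearMap.det (ρ₀.ρ g) = cya_eps p O hp g := by
    intro g t ht
    have e := (Fermat.Agent.S58.s58z_charpoly_two ρ₀.finrank_eq (ρ₀.ρ g)).symm.trans
      ((hcp g).trans ht)
    have e1 := congrArg (fun P : O[X] => P.coeff 1) e
    have e0 := congrArg (fun P : O[X] => P.coeff 0) e
    simp only [coeff_add, coeff_sub, coeff_X_pow, coeff_C_mul, coeff_C, coeff_X] at e1 e0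
    norm_num at e1 e0
    exact ⟨e1, e0⟩
  -- Boston–Lenstra–Ribet
  let b : Module.Basis (Fin 2) O ρ₀.V := Module.finBasisOfFinrankEq O ρ₀.V ρ₀.finrank_eq
  have hspan : Submodule.span O (Set.range ρ₀.ρ) = ⊤ :=
    Fermat.Agent.S53.adic_span_range_eq_top ρ₀ habs
  have hrel : ∀ g : GQ, ∀ u ∈ U, pk_bc K ρ g (pk_bc K ρ g u)
      - algebraMap O K (LinearMap.trace O ρ₀.V (ρ₀.ρ g)) • pk_bc K ρ g u
      + algebraMap O K (LinearMap.det (ρ₀.ρ g)) • u = 0 := by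
    intro g u hu
    obtain ⟨t, ht, hrel⟩ := h3 g
    obtain ⟨htr, hdet⟩ := htd g t ht
    rw [htr, hdet]
    exact hrel u hu
  obtain ⟨hI, hII⟩ := twfo_blr_sub (O := O) (pk_bc K ρ) U hUst b ρ₀.ρ hspan hrel
  refine ⟨U, hU0, hUst, hUW, ?_, ?_⟩
  · -- inertia at `q` acts trivially
    intro A hA s hs u hu
    exact hI s (hunr A hA s hs) u hu
  · -- no Frobenius with `φ² = q²`
    intro A hA φ hφ hsq
    have h9 : ρ₀.ρ φ * ρ₀.ρ φ = ((q : O) ^ 2) • (1 : Module.End O ρ₀.V) := by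
      apply hII hU0 hinjK φ ((q : O) ^ 2)
      intro u hu
      rw [hsq u hu, map_pow, map_natCast]
    -- `det ρ₀ φ = q`
    obtain ⟨t, ht, -⟩ := h3 φ
    have hdet : LinearMap.det (ρ₀.ρ φ) = (q : O) := by
      rw [(htd φ t ht).2]
      exact cya_eps_frob p O hp hq hqp A hA φ hφ
    exact twfo_end_no_square b (ρ₀.ρ φ) q hq.two_le h9 hdet

end core

end Fermat.Agent.TW
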