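/-
Project ONE MACHINE, block [F], [RO] layer, cell (R3'') (helper27; prefix `twfo_`):
THE GLUE INSIDE A `W_q`-EIGENSPACE, at the Tate module of `J₀(M q)`.

`twfo_stage1`: in the setting of `twfo_glue` for `Tp = T_p J₀(M q)`, there are a sign `ε = ± 1` and a
nonzero Galois-stable `U` inside the Hecke eigenspace on which `W_q = ε`, every inertia group at `q`
acts trivially, and no Frobenius `φ` at `q` has `φ² = q²`.
-/
import Mathlib
import Fermat.Agent.JT3.Tate.Inputs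
import Fermat.Agent.TW.Easy.RO.Glue2
import Fermat.Agent.TW.Easy.RO.Abstract
import Fermat.Agent.TW.Easy.RO.Family

set_option autoImplicit false
set_option linter.unusedSectionVars false
set_option linter.unusedVariables false
set_option linter.style.haveILetI false
set_option synthInstance.maxHeartbeats 400000
set_option maxHeartbeats 8000000

noncomputable section

namespace Fermat.Agent.TW

open IsLocalRing TensorProduct Polynomial ModularCurve Fermat.Agent.JT3 Fermat.Agent.S36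
  Fermat.Agent.S44

local notation "GQ" => (AlgebraicClosure ℚ ≃ₐ[ℚ] AlgebraicClosure ℚ)
local notation "Qbar" => AlgebraicClosure ℚ

variable (M q p : ℕ) [NeZero M] [NeZero q] [NeZero (M * q)] [Fact p.Prime] (hq : q.Prime)
  (hqM : ¬ q ∣ M) (S : Finset ℕ)
  (O : Type) [CommRing O] [IsDomain O] [IsDiscreteValuationRing O]
  [IsAdicComplete (maximalIdeal O) O] [CharZero O] [Algebra ℤ_[p] O]
  (K : Type) [Field K] [Algebra O K] [IsFractionRing O K] [Algebra ℤ_[p] K]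
  [IsScalarTower ℤ_[p] O K]

theorem twfo_stage1 (hpS : p ∈ S) (hNS : ∀ r : ℕ, r.Prime → r ∣ M * q → r ∈ S)
    (hp : (p : O) ∈ maximalIdeal O) (a : ℕ → O)
    (hev : ∃ v : K ⊗[ℤ_[p]] tj_T (M * q) p, v ≠ 0 ∧
      ∀ ℓ, pk_Good (M * q) S ℓ →
        (tjp_Tl (M * q) p S ℓ).baseChange K v = algebraMap O K (a ℓ) • v)
    (ρ₀ : GaloisRepAdic O)
    (hρ₀ : ∀ ℓ : ℕ, pk_Good (M * q) S ℓ → ∀ A : ValuationSubring Qbar, A.LiesOverPrime ℓ →
      ∀ φ : GQ, A.IsFrobeniusAt φ ℓ →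
        LinearMap.charpoly (ρ₀.ρ φ) = X ^ 2 - C (a ℓ) * X + C ((ℓ : O)))
    (habs : ρ₀.residual.IsAbsolutelyIrreducible)
    (hqp : q ≠ p) (hunr : ρ₀.IsUnramifiedAt q) :
    ∃ (ε : ℤ) (U : Submodule K (K ⊗[ℤ_[p]] tj_T (M * q) p)), (ε = 1 ∨ ε = -1) ∧ U ≠ ⊥ ∧
      (∀ σ, U ≤ U.comap (pk_bc K (tj_rho (M * q) p) σ)) ∧
      U ≤ pk_eigenspace p (M * q) S (tjp_Tl (M * q) p S) O K a ∧
      (∀ u ∈ U, (twfo_Wt M q p hq hqM).baseChange K u = ε • u) ∧
      (∀ A : ValuationSubring Qbar, A.LiesOverPrime q → ∀ s ∈ A.inertiaSubgroupIn ℚ,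
        ∀ u ∈ U, pk_bc K (tj_rho (M * q) p) s u = u) ∧
      (∀ A : ValuationSubring Qbar, A.LiesOverPrime q → ∀ φ : GQ, A.IsFrobeniusAt φ q →
        ¬ ∀ u ∈ U, pk_bc K (tj_rho (M * q) p) φ (pk_bc K (tj_rho (M * q) p) φ u) =
          ((q : K) ^ 2) • u) := by
  classical
  let E := pk_eigenspace p (M * q) S (tjp_Tl (M * q) p S) O K a
  let WK : Module.End K (K ⊗[ℤ_[p]] tj_T (M * q) p) := (twfo_Wt M q p hq hqM).baseChange K
  have hWK : WK = (twfo_Wt M q p hq hqM).baseChange K := rfl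
  have hWsq : ∀ v, WK (WK v) = v := by
    intro v
    have h1 : twfo_Wt M q p hq hqM * twfo_Wt M q p hq hqM = 1 :=
      LinearMap.ext fun x => twfo_Wt_sq M q p hq hqM x
    rw [hWK, ← Module.End.mul_apply, ← LinearMap.baseChange_mul, h1, LinearMap.baseChange_one,
      Module.End.one_apply]
  -- `W` commutes with the good Hecke operators and with Galois
  have hWT : ∀ ℓ, pk_Good (M * q) S ℓ → ∀ v,
      (tjp_Tl (M * q) p S ℓ).baseChange K (WK v) = WK ((tjp_Tl (M * q) p S ℓ).baseChange K v) := by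
    intro ℓ hℓ v
    have h1 : tjp_Tl (M * q) p S ℓ * twfo_Wt M q p hq hqM =
        twfo_Wt M q p hq hqM * tjp_Tl (M * q) p S ℓ := by
      rw [tjp_Tl_good (M * q) p S hℓ]
      exact LinearMap.ext fun x => (twfo_Wt_hecke M q p hq hqM ⟨ℓ, hℓ.1⟩ hℓ.2.1 x).symm
    rw [hWK, ← Module.End.mul_apply, ← LinearMap.baseChange_mul, h1, LinearMap.baseChange_mul,
      Module.End.mul_apply]
  have hWρ : ∀ (σ : GQ) v, WK (pk_bc K (tj_rho (M * q) p) σ v) =
      pk_bc K (tj_rho (M * q) p) σ (WK v) := by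
    intro σ v
    have h1 : twfo_Wt M q p hq hqM * tj_rho (M * q) p σ =
        tj_rho (M * q) p σ * twfo_Wt M q p hq hqM :=
      LinearMap.ext fun x => twfo_Wt_rho M q p hq hqM σ x
    rw [hWK, pk_bc_apply, ← Module.End.mul_apply, ← LinearMap.baseChange_mul, h1,
      LinearMap.baseChange_mul, Module.End.mul_apply]
  have hE0 : E ≠ ⊥ := by
    obtain ⟨v, hv0, hv⟩ := hev
    intro h
    apply hv0
    have : v ∈ E := hv
    rw [h, Submodule.mem_bot] at this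
    exact this
  have hEW : ∀ v ∈ E, WK v ∈ E := by
    intro v hv ℓ hℓ
    rw [hWT ℓ hℓ v, hv ℓ hℓ, map_smul]
  obtain ⟨ε, hε, v, hvE, hv0, hvε⟩ := twfo_split WK hWsq E hE0 hEW
  -- the `ε`-eigenspace of `W` inside `E`
  let W' : Submodule K (K ⊗[ℤ_[p]] tj_T (M * q) p) := E ⊓ LinearMap.ker (WK - ε • 1)
  have hmemW' : ∀ u, u ∈ W' ↔ u ∈ E ∧ WK u = ε • u := by
    intro u
    rw [Submodule.mem_inf, LinearMap.mem_ker, LinearMap.sub_apply, LinearMap.smul_apply,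
      Module.End.one_apply, sub_eq_zero]
  have hW'0 : W' ≠ ⊥ := by
    intro h
    apply hv0
    have : v ∈ W' := (hmemW' v).2 ⟨hvE, hvε⟩
    rw [h, Submodule.mem_bot] at this
    exact this
  have hW'le : W' ≤ E := inf_le_left
  have hW'st : ∀ σ, W' ≤ W'.comap (pk_bc K (tj_rho (M * q) p) σ) := by
    intro σ u hu
    rw [Submodule.mem_comap, hmemW']
    obtain ⟨huE, huε⟩ := (hmemW' u).1 hu
    refine ⟨pk_eigenspace_stable p (M * q) S (tj_rho (M * q) p) (tjp_Tl (M * q) p S) O K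
      (tjp_Tl_rho (M * q) p S) a σ huE, ?_⟩
    rw [hWρ, huε, map_zsmul]
  have hcont : GaloisActionIsAdicContinuous ℤ_[p] (tj_rho (M * q) p) :=
    tj_cont (M * q) p (tj_finite (M * q) p)
  have hunram : ∀ r : ℕ, r.Prime → ¬ r ∣ M * q → r ≠ p → ∀ P : ValuationSubring Qbar,
      P.LiesOverPrime r → ∀ σ ∈ P.inertiaSubgroupIn ℚ, tj_rho (M * q) p σ = 1 :=
    fun r hr hrN hrp P hP σ hσ =>
      tj_unram (M * q) p (tji_nodeE (M * q)) (tji_S18 (M * q)) r hr hrN hrp P hP σ hσ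
  have hfrob : ∀ ℓ : ℕ, pk_Good (M * q) S ℓ → ∀ A : ValuationSubring Qbar, A.LiesOverPrime ℓ →
      ∀ φ : GQ, A.IsFrobeniusAt φ ℓ →
        tj_rho (M * q) p φ * tj_rho (M * q) p φ - tjp_Tl (M * q) p S ℓ * tj_rho (M * q) p φ
          + (ℓ : ℤ_[p]) • 1 = 0 := by
    intro ℓ hℓ A hA φ hφ
    rw [tjp_Tl_good (M * q) p S hℓ]
    exact tj_frob (M * q) p (tji_nodeE (M * q)) (tji_S18 (M * q)) ℓ hℓ.1 hℓ.2.1
      (fun h => hℓ.2.2 (h ▸ Finset.mem_coe.mpr hpS)) A hA φ hφ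
  obtain ⟨U, hU0, hUst, hUW', hUin, hUfr⟩ := twfo_glue_in p (M * q) S (tj_rho (M * q) p)
    (tjp_Tl (M * q) p S) O K hpS hNS hcont hunram (tjp_Tl_rho (M * q) p S) hfrob hp a W' hW'0
    hW'le hW'st ρ₀ hρ₀ habs q hq hqp hunr
  exact ⟨ε, U, hε, hU0, hUst, hUW'.trans hW'le, fun u hu => ((hmemW' u).1 (hUW' hu)).2,
    hUin, hUfr⟩

end Fermat.Agent.TW
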