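/-
Project ONE MACHINE, block [F], [RO] layer, FINAL (helper27; prefix `twfo_`):
**THE FREY-SPECIFIC READ-OFF `s43t_ReadOffFrey2_stmt` FROM THE GEOMETRIC CELLS (Z3), (Z4), (Z6), (Z7)
AT THE PRIME-POWER EXPONENTS `p ^ n`.**

* `twfo_CompPow_stmt`     : (Z3)+(Z4) = `twf_CompCells A M hqM (p ^ n) S k B` for all `(M, q, p, n, A)`;
* `twfo_ResHeckePow_stmt` : (Z6) = `twf_ResHecke_stmt A M hqM (p ^ n)`;
* `twfo_ToricPow_stmt`    : (Z7) = `twf_Toric_stmt A M hqM (p ^ n)`;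
* **`twfo_readoff : twfo_CompPow_stmt → twfo_ResHeckePow_stmt → twfo_ToricPow_stmt →
   Fermat.Agent.S43.s43t_ReadOffFrey2_stmt`**.
(The cells are those of `TW/Easy/GeoSeam.lean` VERBATIM, at the exponent `m = p ^ n`, `n ≠ 0`.)
-/
import Mathlib
import Fermat.Agent.TW.Easy.RO.Core

set_option autoImplicit false
set_option linter.unusedSectionVars false
set_option linter.unusedVariables false
set_option linter.style.haveILetI false
set_option synthInstance.maxHeartbeats 400000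
set_option maxHeartbeats 16000000

noncomputable section

namespace Fermat.Agent.TW

open WeierstrassCurve WeierstrassCurve.Affine WeierstrassCurve.Affine.Point
open IsLocalRing TensorProduct Polynomial ModularCurve AlgebraicCurve CuspForm Fermat.Agent.JT3
  Fermat.Agent.S36 Fermat.Agent.S35 Fermat.Agent.SS Fermat.Agent.S24 Fermat.Agent.S44
  Fermat.Agent.S43 Fermat.Agent.MZ

local notation "Qb" => AlgebraicClosure ℚ
local notation "GQ" => (AlgebraicClosure ℚ ≃ₐ[ℚ] AlgebraicClosure ℚ)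

/-- **(Z3) + (Z4)** at the exponents `p ^ n`, for all `(M, q, p, n, A)`. -/
def twfo_CompPow_stmt : Prop :=
  ∀ (M q : ℕ) [NeZero M] [NeZero q] [NeZero (M * q)] [hq : Fact q.Prime] (hqM : ¬ q ∣ M)
    (p n : ℕ), q ≠ 2 → p.Prime → 5 ≤ p → p ≠ q → n ≠ 0 →
    ∀ A : ValuationSubring Qb, A.LiesOverPrime q →
      ∃ (S : Finset ℕ) (k : s44e_Sg A M q hq.out hqM → ZMod (p ^ n))
        (B : Nat.Primes → (s44e_Sg A M q hq.out hqM → ZMod (p ^ n)) →+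
          (s44e_Sg A M q hq.out hqM → ZMod (p ^ n))), twf_CompCells A M hqM (p ^ n) S k B

/-- **(Z6)** at the exponents `p ^ n`. -/
def twfo_ResHeckePow_stmt : Prop :=
  ∀ (M q : ℕ) [NeZero M] [NeZero q] [NeZero (M * q)] [hq : Fact q.Prime] (hqM : ¬ q ∣ M)
    (p n : ℕ), q ≠ 2 → p.Prime → 5 ≤ p → p ≠ q → n ≠ 0 →
    ∀ A : ValuationSubring Qb, A.LiesOverPrime q → twf_ResHecke_stmt A M hqM (p ^ n)

/-- **(Z7)** at the exponents `p ^ n`. -/
def twfo_ToricPow_stmt : Prop :=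
  ∀ (M q : ℕ) [NeZero M] [NeZero q] [NeZero (M * q)] [hq : Fact q.Prime] (hqM : ¬ q ∣ M)
    (p n : ℕ), q ≠ 2 → p.Prime → 5 ≤ p → p ≠ q → n ≠ 0 →
    ∀ A : ValuationSubring Qb, A.LiesOverPrime q → twf_Toric_stmt A M hqM (p ^ n)

/-- **[RO] READ-OFF (Frey-specific, v2) FROM THE CELLS.** -/
theorem twfo_readoff (hC : twfo_CompPow_stmt) (hR : twfo_ResHeckePow_stmt)
    (hT : twfo_ToricPow_stmt) : s43t_ReadOffFrey2_stmt := by
  intro P _ N q _ hcond hq hq2 hqp hqN hpN hirr W S hW hS hNS O _ _ _ _ _ _ _ hpO χ ρ hχW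
    hcompat habs hunr
  classical
  obtain ⟨M, hM⟩ := hqN
  have hM' : N = M * q := by rw [hM, mul_comm]
  subst hM'
  have hN0 : M * q ≠ 0 := NeZero.ne _
  haveI : NeZero M := ⟨fun h => hN0 (by rw [h, zero_mul])⟩
  haveI : NeZero q := ⟨hq.ne_zero⟩
  haveI : Fact q.Prime := ⟨hq⟩
  have hqM : ¬ q ∣ M := by
    rintro ⟨k, rfl⟩
    exact hcond.sq_not_dvd hq ⟨k, by ring⟩
  rw [Nat.mul_div_cancel M hq.pos]
  letI : Algebra ℤ_[P.p] O := (cya_padicHom P.p O hpO).toAlgebra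
  obtain ⟨χ₀, hχ₀⟩ := tjp_eigen_gen (M * q) P.p S χ
  have hinjO : Function.Injective (algebraMap ℤ_[P.p] O) :=
    pk_padic_injective P.p (algebraMap ℤ_[P.p] O)
  have hinj : Function.Injective (algebraMap ℤ_[P.p] (FractionRing O)) := by
    rw [IsScalarTower.algebraMap_eq ℤ_[P.p] O (FractionRing O)]
    exact (IsFractionRing.injective O (FractionRing O)).comp hinjO
  haveI : FaithfulSMul ℤ_[P.p] (FractionRing O) :=
    (faithfulSMul_iff_algebraMap_injective _ _).2 hinj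
  obtain ⟨v, hv0, hv⟩ := pk_eigen_tensor
    (Algebra.adjoin ℤ_[P.p] (pk_heckeSet (M * q) S (tjp_Tl (M * q) P.p S)))
    (pk_hecke_comm (tjp_tate (M * q) P.p S hS.1 (tji_nodeE (M * q)) (tji_S18 (M * q))))
    ((IsScalarTower.toAlgHom ℤ_[P.p] O (FractionRing O)).comp χ₀)
  let a : ℕ → O := fun ℓ =>
    if h : pk_Good (M * q) S ℓ then χ (heckeAlgebra.T h.1 h.2.1 h.2.2) else 0
  have ha : ∀ (ℓ : ℕ) (h : pk_Good (M * q) S ℓ), a ℓ = χ (heckeAlgebra.T h.1 h.2.1 h.2.2) :=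
    fun ℓ h => by simp only [a, dif_pos h]
  have hares : ∀ ℓ, pk_Good (M * q) S ℓ →
      a ℓ - ((W.apOfModel ℓ : ℤ) : O) ∈ maximalIdeal O := by
    intro ℓ hℓ
    rw [← IsLocalRing.residue_eq_zero_iff, map_sub, ha ℓ hℓ, hχW ℓ hℓ.1 hℓ.2.1 hℓ.2.2,
      map_intCast, map_intCast, sub_self]
  refine twfo_core P M q hqM hq2 hqp hirr W S hW hS hNS O (FractionRing O) hpO a hares
    ⟨v, hv0, fun ℓ hℓ => ?_⟩ ρ (fun ℓ hℓ A hA φ hφ => ?_) habs hunr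
    (fun n hn A hA => hC M q hqM P.p n hq2 P.pp P.hp5 (Ne.symm hqp) hn A hA)
    (fun n hn A hA => hR M q hqM P.p n hq2 P.pp P.hp5 (Ne.symm hqp) hn A hA)
    (fun n hn A hA => hT M q hqM P.p n hq2 P.pp P.hp5 (Ne.symm hqp) hn A hA)
  · have := hv ⟨tjp_Tl (M * q) P.p S ℓ, pk_mem_heckeSet (tjp_Tl (M * q) P.p S) hℓ.1 hℓ.2.1 hℓ.2.2⟩
    rw [this, ha ℓ hℓ]
    congr 1
    change algebraMap O (FractionRing O) (χ₀ _) = _
    rw [hχ₀ ℓ hℓ.1 hℓ.2.1 hℓ.2.2]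
  · rw [hcompat ℓ hℓ.1 hℓ.2.1 hℓ.2.2 A hA φ hφ, ha ℓ hℓ]

end Fermat.Agent.TW
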