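/-
Project ONE MACHINE (S43), block [F], [RO] layer, cell (R3') (helper15; prefix `twfn_`).  Mathlib only.

**Common kernel of a commuting family of nilpotent endomorphisms of a finite abelian group.**

* `twfn_common_ker_sub` : `D` a nonzero finite subgroup of `G`, `f i : G →+ G` (`i ∈ ι`, `ι` arbitrary)
  stabilising `D`, commuting ON `D`, each nilpotent on `D` (`(f i)^[k] x = 0` for `x ∈ D`)
  ⟹ `∃ d ∈ D, d ≠ 0 ∧ ∀ i, f i d = 0`;
* `twfn_common_ker` : the case `D = G`.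

Proof: a nonzero stable subgroup `S ≤ D` of minimal cardinality; `S ∩ ker (f i)` is stable and nonzero
(a nilpotent map of a nonzero group is not injective), hence equal to `S`.
-/
import Mathlib

set_option autoImplicit false
set_option linter.style.haveILetI false

namespace Fermat.Agent.TW

/-- a nilpotent additive endomorphism of a nonzero stable subgroup kills a nonzero element of it. -/
theorem twfn_exists_ker_of_nilpotent {D : Type*} [AddCommGroup D] (f : D →+ D) (S : AddSubgroup D)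
    (hS0 : S ≠ ⊥) (hSf : ∀ x ∈ S, f x ∈ S) (k : ℕ) (hk : ∀ x ∈ S, (⇑f)^[k] x = 0) :
    ∃ d ∈ S, d ≠ 0 ∧ f d = 0 := by
  obtain ⟨⟨x, hxS⟩, hx0'⟩ := (AddSubgroup.ne_bot_iff_exists_ne_zero).mp hS0
  have hx0 : x ≠ 0 := fun h => hx0' (Subtype.ext h)
  -- the last nonzero iterate of `x`
  have hex : ∃ j, (⇑f)^[j] x = 0 := ⟨k, hk x hxS⟩
  classical
  set j := Nat.find hex with hj
  have hj0 : (⇑f)^[j] x = 0 := Nat.find_spec hex
  have hjpos : j ≠ 0 := by
    intro h0
    rw [h0, Function.iterate_zero, id] at hj0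
    exact hx0 hj0
  obtain ⟨i, hi⟩ := Nat.exists_eq_succ_of_ne_zero hjpos
  have hmem : ∀ n : ℕ, (⇑f)^[n] x ∈ S := by
    intro n
    induction n with
    | zero => simpa using hxS
    | succ n ih =>
      rw [Function.iterate_succ_apply']
      exact hSf _ ih
  refine ⟨(⇑f)^[i] x, hmem i, ?_, ?_⟩
  · intro h0
    have : j ≤ i := Nat.find_min' hex h0
    omega
  · have h1 : f ((⇑f)^[i] x) = (⇑f)^[i + 1] x := (Function.iterate_succ_apply' (⇑f) i x).symm
    rw [h1, ← Nat.succ_eq_add_one, ← hi]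
    exact hj0

/-- **common kernel**, ambient form. -/
theorem twfn_common_ker_sub {G : Type*} [AddCommGroup G] {ι : Type*} (f : ι → (G →+ G))
    (D : AddSubgroup G) [Finite D] (hD0 : D ≠ ⊥)
    (hstab : ∀ i, ∀ x ∈ D, f i x ∈ D)
    (hcomm : ∀ i j, ∀ x ∈ D, f i (f j x) = f j (f i x))
    (hnil : ∀ i, ∃ k : ℕ, ∀ x ∈ D, (⇑(f i))^[k] x = 0) :
    ∃ d ∈ D, d ≠ 0 ∧ ∀ i, f i d = 0 := by
  classical
  -- the nonzero stable subgroups of `D`
  let 𝒮 : Set (AddSubgroup G) := {S | S ≤ D ∧ S ≠ ⊥ ∧ ∀ i, ∀ x ∈ S, f i x ∈ S}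
  have h𝒮 : 𝒮.Nonempty := ⟨D, le_refl D, hD0, hstab⟩
  have hfin : ∀ S : AddSubgroup G, S ≤ D → Finite S := fun S hS =>
    Finite.of_injective (fun x : S => (⟨x.1, hS x.2⟩ : D))
      (fun a b h => Subtype.ext (by simpa using congrArg Subtype.val h))
  -- a stable subgroup of minimal cardinality
  obtain ⟨S, hS𝒮, hSmin⟩ := WellFounded.has_min
    (InvImage.wf (fun S : AddSubgroup G => Nat.card S) Nat.lt_wfRel.wf) 𝒮 h𝒮
  obtain ⟨hSD, hS0, hSst⟩ := hS𝒮
  haveI : Finite S := hfin S hSD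
  -- every `f i` vanishes on `S`
  have hvan : ∀ i, ∀ x ∈ S, f i x = 0 := by
    intro i
    -- the subgroup `S ∩ ker (f i)`
    let S' : AddSubgroup G := S ⊓ (f i).ker
    have hS'S : S' ≤ S := inf_le_left
    haveI : Finite S' := hfin S' (hS'S.trans hSD)
    obtain ⟨k, hk⟩ := hnil i
    obtain ⟨d, hdS, hd0, hfd⟩ := twfn_exists_ker_of_nilpotent (f i) S hS0 (hSst i) k
      (fun x hx => hk x (hSD hx))
    have hS'0 : S' ≠ ⊥ := by
      intro h
      have hd' : d ∈ S' := ⟨hdS, (AddMonoidHom.mem_ker).mpr hfd⟩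
      rw [h, AddSubgroup.mem_bot] at hd'
      exact hd0 hd'
    have hS'st : ∀ j, ∀ x ∈ S', f j x ∈ S' := by
      intro j x hx
      refine ⟨hSst j x hx.1, ?_⟩
      have hx2 : f i x = 0 := (AddMonoidHom.mem_ker).mp hx.2
      show f j x ∈ (f i).ker
      rw [AddMonoidHom.mem_ker, hcomm i j x (hSD hx.1), hx2, map_zero]
    have hS'𝒮 : S' ∈ 𝒮 := ⟨hS'S.trans hSD, hS'0, hS'st⟩
    -- minimality: `card S ≤ card S'`, so `S' = S`
    have hnot := hSmin S' hS'𝒮
    have hle : Nat.card S ≤ Nat.card S' := by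
      by_contra hlt
      exact hnot (show Nat.card S' < Nat.card S from not_le.mp hlt)
    have hinj : Function.Injective (fun x : S' => (⟨x.1, hS'S x.2⟩ : S)) :=
      fun a b h => Subtype.ext (by simpa using congrArg Subtype.val h)
    have hcard : Nat.card S' ≤ Nat.card S := Nat.card_le_card_of_injective _ hinj
    have hbij : Function.Bijective (fun x : S' => (⟨x.1, hS'S x.2⟩ : S)) :=
      (Nat.bijective_iff_injective_and_card _).mpr ⟨hinj, le_antisymm hcard hle⟩
    intro x hx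
    obtain ⟨y, hy⟩ := hbij.2 ⟨x, hx⟩
    have hyx : (y : G) = x := congrArg Subtype.val hy
    have hy2 : f i (y : G) = 0 := (AddMonoidHom.mem_ker).mp y.2.2
    rw [← hyx]
    exact hy2
  obtain ⟨⟨d, hdS⟩, hd0'⟩ := (AddSubgroup.ne_bot_iff_exists_ne_zero).mp hS0
  have hd0 : d ≠ 0 := fun h => hd0' (Subtype.ext h)
  exact ⟨d, hSD hdS, hd0, fun i => hvan i d hdS⟩

/-- **common kernel**: a commuting family of nilpotent additive endomorphisms of a nonzero finite
additive group kills a nonzero element. -/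
theorem twfn_common_ker {D : Type*} [AddCommGroup D] [Finite D] [Nontrivial D] {ι : Type*}
    (f : ι → (D →+ D)) (hcomm : ∀ i j, ∀ x, f i (f j x) = f j (f i x))
    (hnil : ∀ i, ∃ k : ℕ, ∀ x, (⇑(f i))^[k] x = 0) :
    ∃ d : D, d ≠ 0 ∧ ∀ i, f i d = 0 := by
  haveI : Finite (⊤ : AddSubgroup D) := inferInstance
  obtain ⟨d, -, hd0, hd⟩ := twfn_common_ker_sub f (⊤ : AddSubgroup D)
    (by
      intro h
      obtain ⟨x, hx⟩ := exists_ne (0 : D)
      have : x ∈ (⊥ : AddSubgroup D) := h ▸ AddSubgroup.mem_top x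
      exact hx ((AddSubgroup.mem_bot).mp this))
    (fun _ _ _ => AddSubgroup.mem_top _) (fun i j x _ => hcomm i j x)
    (fun i => by
      obtain ⟨k, hk⟩ := hnil i
      exact ⟨k, fun x _ => hk x⟩)
  exact ⟨d, hd0, hd⟩

end Fermat.Agent.TW
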