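/-
Project ONE MACHINE, block [F], [RO] layer, ASSEMBLY (helper27; prefix `twfo_`):
**READ-OFF FROM (Z7) ALONE.**

* `twfo_compPow     : twfo_CompPow_stmt`      UNCONDITIONAL ((Z3) helper16 `twfm_mono_gen` + (Z4) helper11,
                                               via helper1's `twf_compCells_gen`);
* `twfo_resHeckePow : twfo_ResHeckePow_stmt`  UNCONDITIONAL ((Z6), via `twf_resHecke_gen`);
* `twfo_toricPow_of : twft_Toric_stmt → twfo_ToricPow_stmt`  (helper20's statement + helper1's adapter
                                               `twf_toric_of_sep` at `m = p ^ n`);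
* **`twfo_readoff_of_toric : twft_Toric_stmt → Fermat.Agent.S43.s43t_ReadOffFrey2_stmt`**.
-/
import Mathlib
import Fermat.Agent.TW.Easy.RO.Main
import Fermat.Agent.TW.Easy.Asm.CompGen
import Fermat.Agent.TW.Easy.Asm.ToricAdapter
import Fermat.Agent.TW.Easy.Asm.ResHeckeAll
import Fermat.Agent.TW.Easy.Toric.Stmt

set_option autoImplicit false
set_option linter.unusedSectionVars false
set_option linter.unusedVariables false
set_option linter.style.haveILetI false
set_option synthInstance.maxHeartbeats 400000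
set_option maxHeartbeats 4000000

noncomputable section

namespace Fermat.Agent.TW

open ModularCurve AlgebraicCurve IsLocalRing Fermat.Agent.JT3 Fermat.Agent.S35 Fermat.Agent.SS
  Fermat.Agent.S24 Fermat.Agent.S44 Fermat.Agent.S43

local notation "Qb" => AlgebraicClosure ℚ
local notation "GQ" => (AlgebraicClosure ℚ ≃ₐ[ℚ] AlgebraicClosure ℚ)

/-- a power of a prime `p ≥ 5` is coprime to `6`. -/
theorem twfo_pow_coprime_six {p : ℕ} (hp : p.Prime) (hp5 : 5 ≤ p) (n : ℕ) :
    Nat.Coprime (p ^ n) 6 :=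
  Nat.Coprime.pow_left n (twf_coprime_six hp hp5)

/-- **(Z3) + (Z4) at the exponents `p ^ n`: closed.** -/
theorem twfo_compPow : twfo_CompPow_stmt := by
  intro M q _ _ _ hq hqM p n hq2 hp hp5 hpq hn A hA
  exact ⟨∅, _, _, twf_compCells_gen A hA M hqM hq2 (pow_ne_zero n hp.ne_zero)
    (twfo_pow_coprime_six hp hp5 n)⟩

/-- **(Z6) at the exponents `p ^ n`: closed.** -/
theorem twfo_resHeckePow : twfo_ResHeckePow_stmt := by
  intro M q _ _ _ hq hqM p n hq2 hp hp5 hpq hn A hA
  exact twf_resHecke_gen A hA M hqM hq2 (pow_ne_zero n hp.ne_zero) (twfo_pow_coprime_six hp hp5 n)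

/-- **(Z7) at the exponents `p ^ n`** from helper20's statement. -/
theorem twfo_toricPow_of (hT : twft_Toric_stmt) : twfo_ToricPow_stmt := by
  intro M q _ _ _ hq hqM p n hq2 hp hp5 hpq hn A hA
  have hqm : ¬ q ∣ p ^ n := fun h =>
    hpq ((Nat.prime_dvd_prime_iff_eq hq.out hp).mp (hq.out.dvd_of_dvd_pow h)).symm
  exact twf_toric_of_sep A hA M hqM hq2 (pow_ne_zero n hp.ne_zero) (twfo_pow_coprime_six hp hp5 n)
    (fun φ hφ => hT A hA φ hφ M hqM hq2 (p ^ n) (pow_ne_zero n hp.ne_zero)
      (twfo_pow_coprime_six hp hp5 n) hqm)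

/-- **[RO] READ-OFF from (Z7) [TORIC] alone.** -/
theorem twfo_readoff_of_toric (hT : twft_Toric_stmt) : s43t_ReadOffFrey2_stmt :=
  twfo_readoff twfo_compPow twfo_resHeckePow (twfo_toricPow_of hT)

end Fermat.Agent.TW
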