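/-
Project ONE MACHINE, block [F], [RO] layer (helper27; prefix `twfo_`): two Mathlib-only lemmas on
`2 × 2` matrices used by the gluing cell (R1).

* `twfo_matrix_algHom_injective` : an algebra map out of `M₂(T)` into a `T`-algebra on which `T` acts
  faithfully is injective (`M₂(T)` is Azumaya);
* `twfo_matrix_no_square`        : over a domain of characteristic `0` there is no `2 × 2` matrix `R`
  with `R² = q²` and `det R = q`, `q ≥ 2` an integer (eigenvalues `±q` have product `±q² ≠ q`);
* `twfo_end_no_square`           : the same for endomorphisms of a free module of rank two.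
-/
import Mathlib

set_option autoImplicit false

namespace Fermat.Agent.TW

open Matrix

/-- an algebra map out of `M₂(T)` into a faithful `T`-algebra is injective. -/
theorem twfo_matrix_algHom_injective {T C : Type*} [CommRing T] [Ring C] [Algebra T C]
    (Φ : Matrix (Fin 2) (Fin 2) T →ₐ[T] C) (hC : ∀ a : T, algebraMap T C a = 0 → a = 0) :
    Function.Injective Φ := by
  rw [injective_iff_map_eq_zero]
  intro X hX
  have key : ∀ i j : Fin 2, algebraMap T C (X i j) = 0 := by
    intro i j
    have h1 : (∑ k : Fin 2, Matrix.single k i (1 : T) * X * Matrix.single j k (1 : T))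
        = algebraMap T (Matrix (Fin 2) (Fin 2) T) (X i j) := by
      simp only [Matrix.single_mul_mul_single, one_mul, mul_one, Fin.sum_univ_two]
      ext a b
      fin_cases a <;> fin_cases b <;> simp [Matrix.algebraMap_matrix_apply, Matrix.single]
    have h2 : Φ (∑ k : Fin 2, Matrix.single k i (1 : T) * X * Matrix.single j k (1 : T)) = 0 := by
      rw [map_sum]
      refine Finset.sum_eq_zero fun k _ => ?_
      rw [map_mul, map_mul, hX, mul_zero, zero_mul]
    rw [h1, AlgHom.commutes] at h2
    exact h2
  ext i j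
  exact hC _ (key i j)

/-- no `2 × 2` matrix over a domain of characteristic `0` has `R² = q²` and `det R = q`. -/
theorem twfo_matrix_no_square {O : Type*} [CommRing O] [IsDomain O] [CharZero O]
    (R : Matrix (Fin 2) (Fin 2) O) (q : ℕ) (hq : 2 ≤ q)
    (hsq : R * R = ((q : O) ^ 2) • (1 : Matrix (Fin 2) (Fin 2) O)) (hdet : R.det = (q : O)) :
    False := by
  -- Cayley–Hamilton in the entries
  have h00 := congrFun (congrFun hsq 0) 0
  have h01 := congrFun (congrFun hsq 0) 1
  have h10 := congrFun (congrFun hsq 1) 0
  have h11 := congrFun (congrFun hsq 1) 1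
  simp only [Matrix.mul_apply, Fin.sum_univ_two, Matrix.smul_apply, Matrix.one_apply_eq,
    Matrix.one_apply_ne, ne_eq, zero_ne_one, one_ne_zero, not_false_eq_true, smul_eq_mul, mul_one,
    mul_zero] at h00 h01 h10 h11
  rw [Matrix.det_fin_two] at hdet
  set a := R 0 0
  set b := R 0 1
  set c := R 1 0
  set d := R 1 1
  -- `(a + d) b = 0`, `(a + d) c = 0`, `a² + bc = q² = d² + bc`, `ad - bc = q`
  have hq0 : (q : O) ≠ 0 := by
    have : q ≠ 0 := by omega
    exact_mod_cast this
  have hq1 : (q : O) - 1 ≠ 0 := by
    intro h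
    have h' : (q : O) = ((1 : ℕ) : O) := by rw [Nat.cast_one]; exact sub_eq_zero.mp h
    have : q = 1 := by exact_mod_cast h'
    omega
  have hqp1 : (q : O) + 1 ≠ 0 := by
    intro h
    have h' : ((q + 1 : ℕ) : O) = ((0 : ℕ) : O) := by push_cast; exact h
    have : q + 1 = 0 := by exact_mod_cast h'
    omega
  -- trace `t = a + d`: `t² = a² + d² + 2ad = 2q² - 2bc + 2ad = 2q² + 2q`
  have ht2 : (a + d) ^ 2 = 2 * (q : O) ^ 2 + 2 * q := by
    linear_combination h00 + h11 + 2 * hdet
  -- `t • R = (q² + q) • 1`, entry (0,0): `t a = a² + ad = a² + bc + q = q² + q`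
  have hta : (a + d) * a = (q : O) ^ 2 + q := by linear_combination h00 + hdet
  have htd : (a + d) * d = (q : O) ^ 2 + q := by linear_combination h11 + hdet
  -- `t² ad = (q² + q)²` and `t² bc = t b · t c = 0`
  have htb : (a + d) * b = 0 := by linear_combination h01
  have htc : (a + d) * c = 0 := by linear_combination h10
  have h1 : (a + d) ^ 2 * (a * d - b * c) = ((q : O) ^ 2 + q) ^ 2 := by
    have e : (a + d) ^ 2 * (a * d - b * c)
        = ((a + d) * a) * ((a + d) * d) - ((a + d) * b) * ((a + d) * c) := by ring
    rw [e, hta, htd, htb, htc]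
    ring
  rw [hdet, ht2] at h1
  -- `(2q² + 2q) q = (q² + q)²`, i.e. `q² (q + 1) (1 - q) = 0`
  have h2 : (q : O) * (q : O) * ((q : O) + 1) * ((q : O) - 1) = 0 := by
    linear_combination (-1 : O) * h1
  rcases mul_eq_zero.mp h2 with h3 | h3
  · rcases mul_eq_zero.mp h3 with h4 | h4
    · rcases mul_eq_zero.mp h4 with h5 | h5 <;> exact hq0 h5
    · exact hqp1 h4
  · exact hq1 h3

/-- no endomorphism of a free module of rank two over a domain of characteristic `0` has
`R² = q²` and `det R = q`. -/
theorem twfo_end_no_square {O : Type*} [CommRing O] [IsDomain O] [CharZero O] {V : Type*}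
    [AddCommGroup V] [Module O V] (b : Module.Basis (Fin 2) O V) (R : Module.End O V) (q : ℕ)
    (hq : 2 ≤ q) (hsq : R * R = ((q : O) ^ 2) • (1 : Module.End O V))
    (hdet : LinearMap.det R = (q : O)) : False := by
  refine twfo_matrix_no_square (LinearMap.toMatrix b b R) q hq ?_ ?_
  · rw [← LinearMap.toMatrix_mul, hsq, map_smul, LinearMap.toMatrix_one]
  · rw [LinearMap.det_toMatrix]
    exact hdet

end Fermat.Agent.TW
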