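/-
Project ONE MACHINE (S43), block [F], [RO] layer, cell (R2') in operator form (helper15; prefix `twfn_`).

**`ν = 0` ON A HECKE-STABLE SUBGROUP ON WHICH `T_ℓ − ℓ − 1` IS ONTO.**

`A` over the odd prime `q ∤ M`, exponent `m ≠ 0`, cells `twf_CompCells A M hqM m S k B` ((Z3)+(Z4)).
Let `Mn ≤ J₀(M q)[m]` be a subgroup of `I_A`-fixed classes and `ℓ ∤ M q`, `ℓ ∉ S`, a prime such that
`T_ℓ − (ℓ + 1)` maps `Mn` ONTO `Mn`.  Then `ν = 0` on `Mn`  (`twfn_nu_zero_of_surj`).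

Proof: for `z' ∈ Mn`, `mono` gives `ν z' = c • (1/k)`; `heckeRes` + `B_eis` give
`ν (T_ℓ z') = B_ℓ (c • (1/k)) = (ℓ + 1) c • (1/k)`; so `ν ((T_ℓ − ℓ − 1) z') = 0`.
No eigen-scalars, no ring version of [EIS].
-/
import Mathlib
import Fermat.Agent.TW.Easy.GeoSeam

set_option autoImplicit false
set_option linter.unusedSectionVars false
set_option linter.unusedVariables false
set_option linter.style.haveILetI false
set_option synthInstance.maxHeartbeats 400000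
set_option maxHeartbeats 1000000

noncomputable section

namespace Fermat.Agent.TW

open ModularCurve AlgebraicCurve IsLocalRing
open Fermat.Agent.JT3 Fermat.Agent.SS Fermat.Agent.S35 Fermat.Agent.S24
open Fermat.Agent.MZ Fermat.Agent.S44

local notation "Qb" => AlgebraicClosure ℚ

/-- additive maps between `ZMod m`-modules of functions are homogeneous (any modulus `m ≠ 0`) -/
theorem twfn_map_smul {m : ℕ} [NeZero m] {Sg : Type*} (B : (Sg → ZMod m) →+ (Sg → ZMod m))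
    (t : ZMod m) (r : Sg → ZMod m) : B (t • r) = t • B r := by
  have h : ∀ s : Sg → ZMod m, t • s = t.val • s := by
    intro s
    funext i
    show t * s i = t.val • s i
    rw [nsmul_eq_mul, ZMod.natCast_zmod_val]
  rw [h, h, map_nsmul]

section Main

variable (A : ValuationSubring Qb) {q : ℕ} [hq : Fact q.Prime]
  (hA : A.LiesOverPrime q) (M : ℕ) [NeZero M] [NeZero q] [NeZero (M * q)] (hqM : ¬ q ∣ M)

include hA

/-- **(R2'), operator form**: `ν = 0` on a subgroup `Mn ≤ J₀(M q)[m]` of `I_A`-fixed classes on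
which `T_ℓ − (ℓ + 1)` is onto (one prime `ℓ ∤ M q`, `ℓ ∉ S`). -/
theorem twfn_nu_zero_of_surj {m : ℕ} (hm0 : m ≠ 0) {S : Finset ℕ}
    {k : s44e_Sg A M q hq.out hqM → ZMod m}
    {B : Nat.Primes → (s44e_Sg A M q hq.out hqM → ZMod m) →+
      (s44e_Sg A M q hq.out hqM → ZMod m)}
    (hC : twf_CompCells A M hqM m S k B)
    (Mn : AddSubgroup (JZero (M * q)))
    (htors : ∀ z ∈ Mn, m • z = 0)
    (hfix : ∀ z ∈ Mn, ∀ σ ∈ A.inertiaSubgroupIn ℚ, σ • z = z)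
    (ℓ : Nat.Primes) (hℓN : ¬ (ℓ : ℕ) ∣ M * q) (hℓS : (ℓ : ℕ) ∉ S)
    (hsurj : ∀ z ∈ Mn, ∃ z' ∈ Mn, heckeOperatorBar (M * q) ℓ z' - ((ℓ : ℕ) + 1) • z' = z) :
    ∀ z ∈ Mn, twfr_nu A M q hq.out hqM m z = 0 := by
  intro z hz
  obtain ⟨z', hz', rfl⟩ := hsurj z hz
  haveI : NeZero m := ⟨hm0⟩
  have hz'm : m • z' = 0 := htors z' hz'
  have hT : m • heckeOperatorBar (M * q) ℓ z' = 0 := by
    rw [← map_nsmul, hz'm, _root_.map_zero]
  obtain ⟨c, hc⟩ := hC.mono z' hz'm (hfix z' hz')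
  -- `ν z' = c • (1/k)`
  have hνz : twfr_nu A M q hq.out hqM m z' = c • fun i => (k i)⁻¹ := by
    funext i
    show twfr_nu A M q hq.out hqM m z' i = c * (k i)⁻¹
    rw [← hc i, mul_comm (k i), mul_assoc, ZMod.mul_inv_of_unit _ (hC.k_unit i), mul_one]
  -- rewrite `T z' − (ℓ+1) z'` with an integer multiple
  have hrw : heckeOperatorBar (M * q) ℓ z' - ((ℓ : ℕ) + 1) • z' =
      heckeOperatorBar (M * q) ℓ z' + (-(((ℓ : ℕ) + 1 : ℕ) : ℤ)) • z' := by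
    rw [neg_smul, natCast_zsmul, sub_eq_add_neg]
  have hneg : m • ((-(((ℓ : ℕ) + 1 : ℕ) : ℤ)) • z') = 0 := by
    rw [smul_comm, hz'm, smul_zero]
  rw [hrw, twfr_nu_add A hA M hqM hm0 hT hneg, twf_nu_zsmul M q hqM A hA hm0 z' hz'm,
    hC.heckeRes ℓ hℓN hℓS z' hz'm, hνz, twfn_map_smul, hC.B_eis ℓ hℓN hℓS]
  funext i
  show c * ((((ℓ : ℕ) : ZMod m) + 1) * (k i)⁻¹) + (-(((ℓ : ℕ) + 1 : ℕ) : ℤ)) • (c * (k i)⁻¹) = 0
  rw [zsmul_eq_mul]
  push_cast
  ring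

end Main

end Fermat.Agent.TW
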