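/-
Project ONE MACHINE (S43), block [F], [RO] layer, cell (R3') (helper15; prefix `twfn_`).

**THE OLD-k BRANCH AT EXPONENT `p ^ n`.**

`P` a Frey package, `p = P.p`, `A` over the odd prime `q`, `q ∤ M`, `q` a bad prime of the integral
model `W`; `m = p ^ n`, `ν = twfr_nu … m`, `δ = twfr_delta … m` (helper20).  Let `Mn ≤ J₀(M q)` be a
FINITE subgroup such that

* `Mn ≤ J₀(M q)[m] ∩ ker ν`;
* `Mn` is stable under the `T_ℓ`, `ℓ ∤ M q`, which commute on `Mn`;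
* for every good `ℓ ∤ M`, `ℓ ≠ p`: `(T_ℓ − a_ℓ(W))^k = 0` on `Mn` for some `k`
  (the eigensystem of `Mn` is residually that of `W`);
* `δ z₀ ≠ 0` for ONE `z₀ ∈ Mn`.

Then `P.ModularRepOfLevel M`  (`twfn_level_of_delta_n`).

Proof: `D := δ(Mn) ≤ JZeroC kA M` is a nonzero finite subgroup; by (Z6) (`twfq_delta_hecke`,
`twfq_delta_zsmul`) the commuting endomorphisms `T̃_ℓ − a_ℓ(W)` and `p` stabilise `D` and are nilpotent
on it; a nonzero element of their common kernel (`twfn_common_ker_sub`) is a class `d ≠ 0`, `p d = 0`,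
`T̃_ℓ d = a_ℓ(W) d`, and `twf_level_of_delta` (helper1) applies.
-/
import Mathlib
import Fermat.Agent.TW.Easy.RO.CommonKer
import Fermat.Agent.TW.Easy.ResHecke.Main
import Fermat.Agent.TW.Easy.LevelOfDelta
import Fermat.Agent.JT3.Tate.JZeroInputs
import Fermat.Agent.MZ.S.Div

set_option autoImplicit false
set_option linter.unusedSectionVars false
set_option linter.unusedVariables false
set_option linter.style.haveILetI false
set_option synthInstance.maxHeartbeats 400000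
set_option maxHeartbeats 1000000

noncomputable section

namespace Fermat.Agent.TW

open ModularCurve AlgebraicCurve IntermediateField IsLocalRing
open Fermat.Agent.JT3 Fermat.Agent.SS Fermat.Agent.S35 Fermat.Agent.S24 Fermat.Agent.S28
open Fermat.Agent.MZ Fermat.Agent.S44

local notation "Qb" => AlgebraicClosure ℚ

/-- `p ^ n` is coprime to `6` for a prime `p ≥ 5`. -/
theorem twfn_pow_coprime_six {p : ℕ} (hp : p.Prime) (hp5 : 5 ≤ p) (n : ℕ) :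
    Nat.Coprime (p ^ n) 6 := by
  apply Nat.Coprime.pow_left
  rw [Nat.Prime.coprime_iff_not_dvd hp]
  intro h
  have h6 : p ≤ 6 := Nat.le_of_dvd (by norm_num) h
  interval_cases p
  · norm_num at h
  · norm_num at hp

/-- **The Hecke operators `T_ℓ`, `ℓ ∤ N`, commute on the `p`-power torsion of `J₀(N)`**
(lift to the Tate module, `tji_hecke_comm`; divisibility `mzs_dv_div`). -/
theorem twfn_hecke_comm_tors (N : ℕ) [NeZero N] (p : ℕ) [hp : Fact p.Prime] (ℓ ℓ' : Nat.Primes)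
    (hℓN : ¬ (ℓ : ℕ) ∣ N) (hℓ'N : ¬ (ℓ' : ℕ) ∣ N) (n : ℕ) (z : JZero N) (hz : p ^ n • z = 0) :
    heckeOperatorBar N ℓ (heckeOperatorBar N ℓ' z) =
      heckeOperatorBar N ℓ' (heckeOperatorBar N ℓ z) := by
  obtain ⟨x, hx⟩ := tm_exists_of_div (p := p)
    (fun y _ => mzs_dv_div N p hp.out.ne_zero y) n hz
  have : Fact (ℓ : ℕ).Prime := ⟨ℓ.2⟩
  have : Fact (ℓ' : ℕ).Prime := ⟨ℓ'.2⟩
  have h := tji_hecke_comm N p ℓ ℓ' hℓN hℓ'N
  have h1 := congrArg (fun F : Module.End ℤ_[p] (tm_T (JZero N) p) => (F x).1 n) h.eq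
  subst hx
  exact h1

section Main

variable (P : FreyPackage) (A : ValuationSubring Qb) {q : ℕ} [hq : Fact q.Prime]
  (hA : A.LiesOverPrime q) (M : ℕ) [NeZero M] [NeZero q] [NeZero (M * q)] (hqM : ¬ q ∣ M)
  (hq2 : q ≠ 2) (W : WeierstrassCurve ℤ) (hW : W.IsIntegralModelOf P.freyCurve)
  (hbad : ¬ W.IsGoodPrimeFor q) (n : ℕ)

include hA hqM hq2 hW hbad

/-- **(R3') the OLD-k branch at exponent `p ^ n`.** -/
theorem twfn_level_of_delta_n (Mn : AddSubgroup (JZero (M * q))) [Finite Mn]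
    (htors : ∀ z ∈ Mn, (P.p ^ n) • z = 0)
    (hν : ∀ z ∈ Mn, twfr_nu A M q hq.out hqM (P.p ^ n) z = 0)
    (hstab : ∀ ℓ : Nat.Primes, ¬ (ℓ : ℕ) ∣ M * q → ∀ z ∈ Mn, heckeOperatorBar (M * q) ℓ z ∈ Mn)
    (hcomm : ∀ ℓ ℓ' : Nat.Primes, ¬ (ℓ : ℕ) ∣ M * q → ¬ (ℓ' : ℕ) ∣ M * q → ∀ z ∈ Mn,
      heckeOperatorBar (M * q) ℓ (heckeOperatorBar (M * q) ℓ' z) =
        heckeOperatorBar (M * q) ℓ' (heckeOperatorBar (M * q) ℓ z))
    (hnil : ∀ ℓ : Nat.Primes, W.IsGoodPrimeFor ℓ → ¬ (ℓ : ℕ) ∣ M → (ℓ : ℕ) ≠ P.p →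
      ∃ k : ℕ, ∀ z ∈ Mn,
        ((heckeOperatorBar (M * q) ℓ - (W.apOfModel ℓ) • (1 : Module.End ℤ (JZero (M * q)))) ^ k) z
          = 0)
    (hne : ∃ z ∈ Mn, twfr_delta A M q (P.p ^ n) z ≠ 0) :
    P.ModularRepOfLevel M := by
  classical
  have hm0 : P.p ^ n ≠ 0 := pow_ne_zero n P.hp0
  have hm6 : Nat.Coprime (P.p ^ n) 6 := twfn_pow_coprime_six P.pp P.hp5 n
  set m := P.p ^ n with hm
  set δ : JZero (M * q) → JZeroC (s44e_kA A) M := twfr_delta A M q m with hδ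
  -- `δ` on `Mn`
  have hadd : ∀ z ∈ Mn, ∀ z' ∈ Mn, δ (z + z') = δ z + δ z' := fun z hz z' hz' =>
    twfr_delta_add_of_nu A hA M hqM hq2 hm0 hm6 (htors z hz) (htors z' hz') (hν z hz) (hν z' hz')
  have hzs : ∀ z ∈ Mn, ∀ a : ℤ, δ (a • z) = a • δ z := fun z hz a =>
    (twfq_delta_zsmul A hA M hqM hq2 hm0 hm6 (htors z hz) (hν z hz) a).2
  have hzero : δ 0 = 0 := by
    have h := hadd 0 Mn.zero_mem 0 Mn.zero_mem
    rw [add_zero] at h
    exact left_eq_add.mp h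
  have hsub : ∀ z ∈ Mn, ∀ z' ∈ Mn, δ (z - z') = δ z - δ z' := by
    intro z hz z' hz'
    have h1 := hzs z' hz' (-1)
    rw [neg_one_zsmul, neg_one_zsmul] at h1
    rw [sub_eq_add_neg, hadd z hz (-z') (Mn.neg_mem hz'), h1, sub_eq_add_neg]
  let δ' : Mn →+ JZeroC (s44e_kA A) M :=
    AddMonoidHom.mk' (fun z => δ z.1) (fun a b => hadd a.1 a.2 b.1 b.2)
  have hδ' : ∀ z : Mn, δ' z = δ z.1 := fun z => rfl
  set D : AddSubgroup (JZeroC (s44e_kA A) M) := δ'.range with hD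
  haveI : Finite D := Finite.of_surjective δ'.rangeRestrict δ'.rangeRestrict_surjective
  have hmemD : ∀ x, x ∈ D ↔ ∃ z ∈ Mn, δ z = x := by
    intro x
    constructor
    · rintro ⟨z, rfl⟩
      exact ⟨z.1, z.2, rfl⟩
    · rintro ⟨z, hz, rfl⟩
      exact ⟨⟨z, hz⟩, rfl⟩
  have hD0 : D ≠ ⊥ := by
    obtain ⟨z, hz, hne⟩ := hne
    intro h
    have : δ z ∈ D := (hmemD _).2 ⟨z, hz, rfl⟩
    rw [h, AddSubgroup.mem_bot] at this
    exact hne this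
  -- the index type: the good primes, and `p`
  let ι₀ : Type := {ℓ : Nat.Primes // W.IsGoodPrimeFor ℓ ∧ ¬ (ℓ : ℕ) ∣ M ∧ (ℓ : ℕ) ≠ P.p}
  have hℓN : ∀ ℓ : ι₀, ¬ (ℓ.1 : ℕ) ∣ M * q := by
    intro ℓ h
    rcases (Nat.Prime.dvd_mul ℓ.1.2).mp h with h1 | h1
    · exact ℓ.2.2.1 h1
    · have : (ℓ.1 : ℕ) = q := (Nat.prime_dvd_prime_iff_eq ℓ.1.2 hq.out).mp h1
      exact hbad (this ▸ ℓ.2.1)
  -- the operators upstairs and downstairs
  let t : ι₀ → Module.End ℤ (JZero (M * q)) := fun ℓ =>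
    heckeOperatorBar (M * q) ℓ.1 - (W.apOfModel ℓ.1) • (1 : Module.End ℤ (JZero (M * q)))
  let f : Option ι₀ → (JZeroC (s44e_kA A) M →+ JZeroC (s44e_kA A) M) := fun o =>
    match o with
    | none => nsmulAddMonoidHom P.p
    | some ℓ => s44k2_TCp (s44e_kA A) M ℓ.1 - zsmulAddGroupHom (W.apOfModel ℓ.1)
  have ht_apply : ∀ (ℓ : ι₀) (z : JZero (M * q)),
      t ℓ z = heckeOperatorBar (M * q) ℓ.1 z - (W.apOfModel ℓ.1) • z := fun ℓ z => by
    show (heckeOperatorBar (M * q) ℓ.1 - (W.apOfModel ℓ.1) • (1 : Module.End ℤ (JZero (M * q)))) z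
      = _
    rw [LinearMap.sub_apply, LinearMap.smul_apply, Module.End.one_apply]
  have htmem : ∀ (ℓ : ι₀), ∀ z ∈ Mn, t ℓ z ∈ Mn := fun ℓ z hz => by
    rw [ht_apply]
    exact Mn.sub_mem (hstab ℓ.1 (hℓN ℓ) z hz) (Mn.zsmul_mem hz _)
  -- `f ∘ δ = δ ∘ t` on `Mn`
  have hsemi : ∀ (ℓ : ι₀), ∀ z ∈ Mn, f (some ℓ) (δ z) = δ (t ℓ z) := by
    intro ℓ z hz
    show ((s44k2_TCp (s44e_kA A) M ℓ.1 - zsmulAddGroupHom (W.apOfModel ℓ.1) :
      JZeroC (s44e_kA A) M →+ JZeroC (s44e_kA A) M)) (δ z) = _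
    have h := twfq_delta_hecke A hA M hqM hq2 hm0 hm6 ℓ.1 (hℓN ℓ) (htors z hz) (hν z hz)
    rw [← hδ] at h
    rw [AddMonoidHom.sub_apply, zsmulAddGroupHom_apply, ht_apply,
      hsub _ (hstab ℓ.1 (hℓN ℓ) z hz) _ (Mn.zsmul_mem hz _), hzs z hz, h]
  have hnsmul : ∀ z ∈ Mn, f none (δ z) = δ (P.p • z) := by
    intro z hz
    show P.p • δ z = δ (P.p • z)
    have := hzs z hz (P.p : ℤ)
    rw [natCast_zsmul, natCast_zsmul] at this
    exact this.symm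
  -- iterates
  have hiter : ∀ (ℓ : ι₀) (k : ℕ), ∀ z ∈ Mn,
      ((t ℓ) ^ k) z ∈ Mn ∧ (⇑(f (some ℓ)))^[k] (δ z) = δ (((t ℓ) ^ k) z) := by
    intro ℓ k
    induction k with
    | zero =>
      intro z hz
      rw [pow_zero, Module.End.one_apply, Function.iterate_zero, id]
      exact ⟨hz, rfl⟩
    | succ k ih =>
      intro z hz
      have h1 : ((t ℓ) ^ (k + 1)) z = ((t ℓ) ^ k) (t ℓ z) := by
        rw [pow_succ, Module.End.mul_apply]
      rw [h1, Function.iterate_succ_apply, hsemi ℓ z hz]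
      exact ih (t ℓ z) (htmem ℓ z hz)
  have hiterp : ∀ (k : ℕ), ∀ x : JZeroC (s44e_kA A) M, (⇑(f none))^[k] x = (P.p ^ k) • x := by
    intro k
    induction k with
    | zero => intro x; rw [Function.iterate_zero, id, pow_zero, one_smul]
    | succ k ih =>
      intro x
      rw [Function.iterate_succ_apply', ih]
      show P.p • (P.p ^ k • x) = _
      rw [smul_smul, ← pow_succ']
  -- the hypotheses of the common kernel lemma
  have hstabD : ∀ i, ∀ x ∈ D, f i x ∈ D := by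
    intro i x hx
    obtain ⟨z, hz, rfl⟩ := (hmemD x).1 hx
    cases i with
    | none => rw [hnsmul z hz]; exact (hmemD _).2 ⟨_, Mn.nsmul_mem hz _, rfl⟩
    | some ℓ => rw [hsemi ℓ z hz]; exact (hmemD _).2 ⟨_, htmem ℓ z hz, rfl⟩
  have htcomm : ∀ (ℓ ℓ' : ι₀), ∀ z ∈ Mn, t ℓ (t ℓ' z) = t ℓ' (t ℓ z) := by
    intro ℓ ℓ' z hz
    rw [ht_apply ℓ' z, ht_apply ℓ z, map_sub, map_sub, map_zsmul, map_zsmul, ht_apply, ht_apply,
      ht_apply, ht_apply, hcomm ℓ.1 ℓ'.1 (hℓN ℓ) (hℓN ℓ') z hz]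
    module
  have hcommD : ∀ i j, ∀ x ∈ D, f i (f j x) = f j (f i x) := by
    intro i j x hx
    obtain ⟨z, hz, rfl⟩ := (hmemD x).1 hx
    cases i with
    | none =>
      show P.p • (f j (δ z)) = f j (P.p • δ z)
      rw [map_nsmul]
    | some ℓ =>
      cases j with
      | none =>
        show f (some ℓ) (P.p • δ z) = P.p • f (some ℓ) (δ z)
        rw [map_nsmul]
      | some ℓ' =>
        rw [hsemi ℓ' z hz, hsemi ℓ _ (htmem ℓ' z hz), hsemi ℓ z hz, hsemi ℓ' _ (htmem ℓ z hz),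
          htcomm ℓ ℓ' z hz]
  have hnilD : ∀ i, ∃ k : ℕ, ∀ x ∈ D, (⇑(f i))^[k] x = 0 := by
    intro i
    cases i with
    | none =>
      refine ⟨n, fun x hx => ?_⟩
      rw [hiterp]
      obtain ⟨z, hz, rfl⟩ := (hmemD x).1 hx
      exact twfr_delta_tors A M q m z
    | some ℓ =>
      obtain ⟨k, hk⟩ := hnil ℓ.1 ℓ.2.1 ℓ.2.2.1 ℓ.2.2.2
      refine ⟨k, fun x hx => ?_⟩
      obtain ⟨z, hz, rfl⟩ := (hmemD x).1 hx
      rw [(hiter ℓ k z hz).2]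
      have : ((t ℓ) ^ k) z = 0 := hk z hz
      rw [this, hzero]
  obtain ⟨d, -, hd0, hd⟩ := twfn_common_ker_sub f D hD0 hstabD hcommD hnilD
  refine twf_level_of_delta P M q hq.out hqM W hW hbad A hA d hd0 (hd none) ?_
  intro ℓ hgood hℓM hℓp
  have h := hd (some ⟨ℓ, hgood, hℓM, hℓp⟩)
  have h' : s44k2_TCp (s44e_kA A) M ℓ d - (W.apOfModel ℓ) • d = 0 := h
  exact sub_eq_zero.mp h'

/-- **(R3'), final form**: the commutation hypothesis is automatic on `p ^ n`-torsion. -/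
theorem twfn_level_of_delta_n' (Mn : AddSubgroup (JZero (M * q))) [Finite Mn]
    (htors : ∀ z ∈ Mn, (P.p ^ n) • z = 0)
    (hν : ∀ z ∈ Mn, twfr_nu A M q hq.out hqM (P.p ^ n) z = 0)
    (hstab : ∀ ℓ : Nat.Primes, ¬ (ℓ : ℕ) ∣ M * q → ∀ z ∈ Mn, heckeOperatorBar (M * q) ℓ z ∈ Mn)
    (hnil : ∀ ℓ : Nat.Primes, W.IsGoodPrimeFor ℓ → ¬ (ℓ : ℕ) ∣ M → (ℓ : ℕ) ≠ P.p →
      ∃ k : ℕ, ∀ z ∈ Mn,
        ((heckeOperatorBar (M * q) ℓ - (W.apOfModel ℓ) • (1 : Module.End ℤ (JZero (M * q)))) ^ k) z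
          = 0)
    (hne : ∃ z ∈ Mn, twfr_delta A M q (P.p ^ n) z ≠ 0) :
    P.ModularRepOfLevel M := by
  haveI : Fact P.p.Prime := ⟨P.pp⟩
  exact twfn_level_of_delta_n P A hA M hqM hq2 W hW hbad n Mn htors hν hstab
    (fun ℓ ℓ' hℓ hℓ' z hz =>
      twfn_hecke_comm_tors (M * q) P.p ℓ ℓ' hℓ hℓ' n z (htors z hz)) hnil hne

end Main

end Fermat.Agent.TW
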